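/-
S56 / Program G, block LOC-ord (helper19), file 6: the abstract count `dim L ≤ h⁰ + 1`.

`G` a group with a level structure `Lv`, `A` a smooth finite-dimensional representation over a
field `k`, `E ≠ 0` in `A` an eigenvector: `g E = χ(g) E`, and `H'` with `g H' - H' = s(g) E`,
`H' ∉ k E`.  Let `L ⊂ H¹_LC(A)` be the classes with a representative valued in `k E`.  If the
`χ`-twisted LC homomorphisms modulo twisted coboundaries (`= H¹_LC(G, k(χ))`) have dimension `≤ 2`,
then `dim L ≤ dim A^G + 1`.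
-/
import Mathlib
import Fermat.Agent.CFT.LC.Cochains

set_option autoImplicit false
set_option linter.unusedSectionVars false

namespace Fermat.Agent.TW.Ord

open Fermat.Agent.CFT groupCohomology Module

variable {k G : Type} [Field k] [Group G] (Lv : LevelStructure G)

/-- `χ`-twisted LC homomorphisms `G → k`: `f (g h) = χ g * f h + f g`. -/
def twZ (χ : G → k) : Submodule k (G → k) where
  carrier := {f | Lv.IsLC₁ f ∧ ∀ g h, f (g * h) = χ g * f h + f g}
  add_mem' := by
    rintro f f' ⟨h1, h2⟩ ⟨h3, h4⟩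
    refine ⟨h1.add h3, fun g h => ?_⟩
    simp only [Pi.add_apply, h2 g h, h4 g h]
    ring
  zero_mem' := ⟨Lv.isLC₁_const 0, fun g h => by simp⟩
  smul_mem' := by
    rintro c f ⟨h1, h2⟩
    refine ⟨h1.comp (c • ·), fun g h => ?_⟩
    simp only [Pi.smul_apply, smul_eq_mul, h2 g h]
    ring

theorem mem_twZ {χ : G → k} {f : G → k} :
    f ∈ twZ Lv χ ↔ Lv.IsLC₁ f ∧ ∀ g h, f (g * h) = χ g * f h + f g := Iff.rfl

/-- The twisted coboundaries `g ↦ (χ g - 1) t`. -/
def twB (χ : G → k) : Submodule k (G → k) where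
  carrier := {f | ∃ t : k, ∀ g, f g = (χ g - 1) * t}
  add_mem' := by
    rintro f f' ⟨t, ht⟩ ⟨t', ht'⟩
    exact ⟨t + t', fun g => by simp only [Pi.add_apply, ht g, ht' g]; ring⟩
  zero_mem' := ⟨0, fun g => by simp⟩
  smul_mem' := by
    rintro c f ⟨t, ht⟩
    exact ⟨c * t, fun g => by simp only [Pi.smul_apply, smul_eq_mul, ht g]; ring⟩

theorem mem_twB {χ : G → k} {f : G → k} : f ∈ twB χ ↔ ∃ t : k, ∀ g, f g = (χ g - 1) * t := Iff.rfl

/-- `H¹_LC(G, k(χ))` in raw form. -/
abbrev twH1 (χ : G → k) : Type := ↥(twZ Lv χ) ⧸ (twB χ).comap (twZ Lv χ).subtype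

variable (A : Rep k G)

/-- LC cocycles with values in a submodule. -/
def valuedZ₁ (N : Submodule k A) : Submodule k ↥(LC.Z₁ Lv A) where
  carrier := {z | ∀ g : G, z.1 g ∈ N}
  add_mem' := by
    intro x y hx hy g
    exact N.add_mem (hx g) (hy g)
  zero_mem' := fun g => N.zero_mem
  smul_mem' := by
    intro c x hx g
    exact N.smul_mem c (hx g)

theorem mem_valuedZ₁ {N : Submodule k A} (z : ↥(LC.Z₁ Lv A)) :
    z ∈ valuedZ₁ Lv A N ↔ ∀ g : G, z.1 g ∈ N := Iff.rfl

variable {Lv A}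

section Count

variable (hA : IsSmooth Lv A) {χ s : G → k} {E H' : A}
  (hE : ∀ g, A.ρ g E = χ g • E) (hH : ∀ g, A.ρ g H' - H' = s g • E)

include hE in
/-- `f ↦ f • E` on twisted homomorphisms, as LC cocycles. -/
theorem smul_mem_Z₁ {f : G → k} (hf : f ∈ twZ Lv χ) : (fun g => f g • E) ∈ LC.Z₁ Lv A := by
  refine ⟨(mem_cocycles₁_iff _).2 fun g h => ?_, hf.1.comp (· • E)⟩
  show f (g * h) • E = A.ρ g (f h • E) + f g • E
  rw [hf.2 g h, map_smul, hE, smul_smul, add_smul, mul_comm]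

/-- The map `twZ → Z₁(A)`, `f ↦ f • E`. -/
def smulE (hE : ∀ g, A.ρ g E = χ g • E) : ↥(twZ Lv χ) →ₗ[k] ↥(LC.Z₁ Lv A) where
  toFun f := ⟨fun g => f.1 g • E, smul_mem_Z₁ hE f.2⟩
  map_add' f f' := by
    apply Subtype.ext
    funext g
    show (f.1 g + f'.1 g) • E = f.1 g • E + f'.1 g • E
    rw [add_smul]
  map_smul' c f := by
    apply Subtype.ext
    funext g
    show (c * f.1 g) • E = c • f.1 g • E
    rw [mul_smul]

theorem smulE_apply (f : ↥(twZ Lv χ)) (g : G) : (smulE hE f).1 g = f.1 g • E := rfl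

include hE in
theorem smulE_mem_B₁ (f : ↥(twZ Lv χ)) (hf : f.1 ∈ twB χ) :
    LC.H1π Lv A (smulE hE f) = 0 := by
  rw [LC.H1π_eq_zero_iff]
  obtain ⟨t, ht⟩ := hf
  refine ⟨t • E, ?_⟩
  funext g
  show A.ρ g (t • E) - t • E = f.1 g • E
  rw [map_smul, hE, ht g, smul_smul, sub_mul, one_mul, sub_smul, mul_comm]

/-- The induced map `H¹(k(χ)) → H¹(A)`. -/
noncomputable def twToH1 (hE : ∀ g, A.ρ g E = χ g • E) : twH1 Lv χ →ₗ[k] LC.H1 Lv A :=
  Submodule.liftQ _ ((LC.H1π Lv A).comp (smulE hE)) (by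
    intro f hf
    exact smulE_mem_B₁ hE f hf)

theorem twToH1_mk (f : ↥(twZ Lv χ)) :
    twToH1 hE (Submodule.Quotient.mk f) = LC.H1π Lv A (smulE hE f) := rfl

include hE in
/-- Every cocycle valued in `k E` comes from a twisted homomorphism. -/
theorem exists_twZ_of_valued (hE0 : E ≠ 0) (z : ↥(LC.Z₁ Lv A))
    (hz : z ∈ valuedZ₁ Lv A (Submodule.span k {E})) :
    ∃ f : ↥(twZ Lv χ), smulE hE f = z := by
  have hcoef : ∀ g, ∃ c : k, c • E = z.1 g := fun g => Submodule.mem_span_singleton.1 (hz g)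
  choose f hf using hcoef
  have hinj : ∀ c c' : k, c • E = c' • E → c = c' := fun c c' h =>
    smul_left_injective k hE0 h
  have hfZ : f ∈ twZ Lv χ := by
    refine ⟨?_, fun g h => ?_⟩
    · obtain ⟨N, hN, hinv⟩ := z.2.2
      refine ⟨N, hN, fun g u hu => hinj _ _ ?_⟩
      rw [hf, hf, hinv g u hu]
    · apply hinj
      have := (mem_cocycles₁_iff _).1 z.2.1 g h
      rw [← hf, ← hf h, ← hf g, map_smul, hE, smul_smul] at this
      rw [this, add_smul, mul_comm]
  refine ⟨⟨f, hfZ⟩, ?_⟩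
  apply Subtype.ext
  funext g
  exact hf g

include hE in
theorem valued_map_le_range (hE0 : E ≠ 0) :
    (valuedZ₁ Lv A (Submodule.span k {E})).map (LC.H1π Lv A) ≤ LinearMap.range (twToH1 hE) := by
  rintro _ ⟨z, hz, rfl⟩
  obtain ⟨f, rfl⟩ := exists_twZ_of_valued hE hE0 z hz
  exact ⟨Submodule.Quotient.mk f, rfl⟩

include hA hE hH in
/-- The cochain `s` is a twisted LC homomorphism. -/
theorem s_mem_twZ (hE0 : E ≠ 0) : s ∈ twZ Lv χ := by
  have hinj : ∀ c c' : k, c • E = c' • E → c = c' := fun c c' h =>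
    smul_left_injective k hE0 h
  refine ⟨?_, fun g h => ?_⟩
  · obtain ⟨N, hN, hinv⟩ := LC.d₀₁_mem_C₁ hA H'
    refine ⟨N, hN, fun g u hu => hinj _ _ ?_⟩
    have := hinv g u hu
    simp only [d₀₁_hom_apply] at this
    rw [← hH, ← hH, this]
  · apply hinj
    have h1 : A.ρ (g * h) H' - H' = A.ρ g (A.ρ h H' - H') + (A.ρ g H' - H') := by
      rw [map_mul, Module.End.mul_apply, map_sub]
      abel
    rw [← hH, h1, hH h, hH g, map_smul, hE, smul_smul, add_smul, mul_comm]

include hA hE hH in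
/-- **The abstract count.** -/
theorem finrank_valued_le [Module.Finite k A] (hE0 : E ≠ 0) (hlin : ∀ t : k, H' ≠ t • E)
    (hfin : Module.Finite k (twH1 Lv χ)) (hK : finrank k (twH1 Lv χ) ≤ 2) :
    Module.Finite k ((valuedZ₁ Lv A (Submodule.span k {E})).map (LC.H1π Lv A)) ∧
      finrank k ((valuedZ₁ Lv A (Submodule.span k {E})).map (LC.H1π Lv A))
        ≤ finrank k A.ρ.invariants + 1 := by
  have hle := valued_map_le_range hE hE0 (Lv := Lv)
  have : Module.Finite k (LinearMap.range (twToH1 (Lv := Lv) hE)) := Module.Finite.range _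
  have hfinL : Module.Finite k ((valuedZ₁ Lv A (Submodule.span k {E})).map (LC.H1π Lv A)) :=
    Submodule.finiteDimensional_of_le hle
  refine ⟨hfinL, ?_⟩
  have h1 : finrank k ((valuedZ₁ Lv A (Submodule.span k {E})).map (LC.H1π Lv A))
      ≤ finrank k (LinearMap.range (twToH1 (Lv := Lv) hE)) := Submodule.finrank_mono hle
  have h2 := LinearMap.finrank_range_add_finrank_ker (twToH1 (Lv := Lv) hE)
  by_cases hinv : 1 ≤ finrank k A.ρ.invariants
  · omega
  · have hbot : A.ρ.invariants = ⊥ := by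
      rw [← Submodule.finrank_eq_zero]
      omega
    -- the class of `s` is a nonzero element of the kernel
    have hs := s_mem_twZ hA hE hH hE0
    have hker : (Submodule.Quotient.mk (⟨s, hs⟩ : ↥(twZ Lv χ)) : twH1 Lv χ)
        ∈ LinearMap.ker (twToH1 (Lv := Lv) hE) := by
      rw [LinearMap.mem_ker, twToH1_mk, LC.H1π_eq_zero_iff]
      refine ⟨H', ?_⟩
      funext g
      show A.ρ g H' - H' = s g • E
      exact hH g
    have hne : (Submodule.Quotient.mk (⟨s, hs⟩ : ↥(twZ Lv χ)) : twH1 Lv χ) ≠ 0 := by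
      intro h0
      rw [Submodule.Quotient.mk_eq_zero] at h0
      obtain ⟨t, ht⟩ := h0
      have hfix : H' - t • E ∈ A.ρ.invariants := by
        intro g
        have h3 := hH g
        rw [map_sub, map_smul, hE]
        have h4 : s g = (χ g - 1) * t := ht g
        rw [h4] at h3
        have h5 : A.ρ g H' = H' + ((χ g - 1) * t) • E := by rw [← h3]; abel
        rw [h5, sub_mul, one_mul, sub_smul, smul_smul, mul_comm]
        abel
      rw [hbot, Submodule.mem_bot, sub_eq_zero] at hfix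
      exact hlin t hfix
    have hpos : 1 ≤ finrank k (LinearMap.ker (twToH1 (Lv := Lv) hE)) := by
      rw [Nat.succ_le_iff, finrank_pos_iff]
      exact ⟨⟨⟨_, hker⟩, 0, fun h => hne (congrArg Subtype.val h)⟩⟩
    omega

end Count

end Fermat.Agent.TW.Ord
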