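/-
S56 / Program G, block LOC-ord (helper19), file 11: the Kummer injection
`H¹_LC(Gal(Ω/K), 𝔽_p(χ)) ↪ Kˣ/(Kˣ)^p`.

`Ω/K` Galois, `G = Gal(Ω/K)` with a level structure `Lv` for which Hilbert 90 holds in level
cohomology, `ζ ∈ Ω` a primitive `p`-th root of unity, `χp : G → 𝔽_p` with `g ζ = ζ ^ χp(g)`.  For a
`χp`-twisted LC homomorphism `f`, `g ↦ ζ ^ f(g)` is an LC cocycle of `Ωˣ`, hence `= g β / β`, and
`β ^ p ∈ Kˣ`; its class modulo `p`-th powers determines `f` up to twisted coboundaries.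
-/
import Mathlib
import Fermat.Agent.TW.Ord.Count
import Fermat.Agent.CFT.Local.LCKummerLocal

set_option autoImplicit false
set_option linter.unusedSectionVars false
set_option linter.style.haveILetI false

namespace Fermat.Agent.TW.Ord

open Fermat.Agent.CFT groupCohomology

variable {K Ω : Type} [Field K] [Field Ω] [Algebra K Ω] [IsGalois K Ω]
  (Lv : LevelStructure (Ω ≃ₐ[K] Ω)) {p : ℕ} [hp : Fact p.Prime]
  {ζ : Ω} (hζ : IsPrimitiveRoot ζ p) (χp : (Ω ≃ₐ[K] Ω) → ZMod p)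

local notation "U" => Rep.ofAlgebraAutOnUnits K Ω

instance instNeZeroOfFactPrime : NeZero p := ⟨(Fact.out : p.Prime).ne_zero⟩

/-- The action of `Gal(Ω/K)` on `Additive Ωˣ` (the carrier of `Rep.ofAlgebraAutOnUnits K Ω`). -/
def actU (g : Ω ≃ₐ[K] Ω) (a : Additive Ωˣ) : Additive Ωˣ := Additive.ofMul (g • Additive.toMul a)

/-- The Galois action on the image of `zetaHom`. -/
theorem ρ_zetaHom (hχ : ∀ g : Ω ≃ₐ[K] Ω, g ζ = ζ ^ (χp g).val) (g : Ω ≃ₐ[K] Ω) (x : ZMod p) :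
    actU g (zetaHom hζ x) = zetaHom hζ (χp g * x) := by
  show Additive.ofMul (g • Additive.toMul (zetaHom hζ x)) = zetaHom hζ (χp g * x)
  apply Additive.toMul.injective
  apply Units.ext
  show g ((Additive.toMul (zetaHom hζ x) : Ωˣ) : Ω) = _
  rw [zetaHom_apply, zetaHom_apply, map_pow, hχ, ← pow_mul]
  -- exponents agree modulo `p`
  have h1 : ((χp g).val * x.val : ℕ) ≡ (χp g * x).val [MOD p] := by
    rw [← ZMod.natCast_eq_natCast_iff]
    push_cast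
    rw [ZMod.natCast_zmod_val, ZMod.natCast_zmod_val, ZMod.natCast_zmod_val]
  have hpow : ∀ a b : ℕ, a ≡ b [MOD p] → ζ ^ a = ζ ^ b := by
    intro a b hab
    rw [← Nat.div_add_mod a p, ← Nat.div_add_mod b p, pow_add, pow_add, pow_mul, pow_mul,
      hζ.pow_eq_one, one_pow, one_pow, one_mul, one_mul]
    congr 1
  exact hpow _ _ h1

variable {Lv χp}

/-- The Kummer cocycle of a twisted homomorphism. -/
theorem zetaHom_comp_mem_Z₁ (hχ : ∀ g : Ω ≃ₐ[K] Ω, g ζ = ζ ^ (χp g).val) {f : (Ω ≃ₐ[K] Ω) → ZMod p}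
    (hf : f ∈ twZ Lv χp) :
    (fun g => (zetaHom hζ (f g) : Additive Ωˣ)) ∈ LC.Z₁ Lv (U) := by
  refine ⟨(mem_cocycles₁_iff _).2 fun g h => ?_, hf.1.comp (zetaHom hζ)⟩
  show (zetaHom hζ (f (g * h)) : Additive Ωˣ)
    = actU g (zetaHom hζ (f h)) + zetaHom hζ (f g)
  rw [hf.2 g h, map_add, ρ_zetaHom hζ χp hχ]

/-- **Kummer**: a twisted homomorphism has a Kummer generator `x ∈ Kˣ`. -/
theorem exists_kummer_gen
    (hH90 : ∀ F : (Ω ≃ₐ[K] Ω) → Additive Ωˣ, F ∈ LC.Z₁ Lv (U) →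
      ∃ β : Ωˣ, ∀ g : Ω ≃ₐ[K] Ω, F g = Additive.ofMul (g • β) - Additive.ofMul β)
    (hχ : ∀ g : Ω ≃ₐ[K] Ω, g ζ = ζ ^ (χp g).val) {f : (Ω ≃ₐ[K] Ω) → ZMod p}
    (hf : f ∈ twZ Lv χp) :
    ∃ (β : Ωˣ) (x : Kˣ), (∀ g : Ω ≃ₐ[K] Ω, zetaHom hζ (f g)
        = Additive.ofMul (g • β) - Additive.ofMul β) ∧
      algebraMap K Ω (x : K) = ((β ^ p : Ωˣ) : Ω) := by
  obtain ⟨β, h1⟩ := hH90 _ (zetaHom_comp_mem_Z₁ hζ hχ hf)
  -- `β ^ p` is fixed
  have hfix : ∀ g : Ω ≃ₐ[K] Ω, g ((β ^ p : Ωˣ) : Ω) = ((β ^ p : Ωˣ) : Ω) := by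
    intro g
    have h2 : Additive.ofMul (g • β) = zetaHom hζ (f g) + Additive.ofMul β := by
      rw [h1 g]; abel
    have h3 : p • Additive.ofMul (g • β) = p • Additive.ofMul β := by
      rw [h2, nsmul_add, ← map_nsmul]
      have : p • f g = 0 := by
        rw [nsmul_eq_mul, ZMod.natCast_self, zero_mul]
      rw [this, map_zero, zero_add]
    have h4 : (g • β) ^ p = β ^ p := by
      have := congrArg Additive.toMul h3
      simpa using this
    have h5 := congrArg (fun u : Ωˣ => (u : Ω)) h4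
    simp only [Units.val_pow_eq_pow_val] at h5
    rw [Units.val_pow_eq_pow_val, map_pow]
    exact h5
  obtain ⟨x, hx⟩ := (InfiniteGalois.mem_range_algebraMap_iff_fixed (k := K) (K := Ω) _).2 hfix
  have hx0 : x ≠ 0 := by
    rintro rfl
    rw [map_zero] at hx
    exact (β ^ p).ne_zero hx.symm
  exact ⟨β, Units.mk0 x hx0, h1, hx⟩

theorem actU_add (g : Ω ≃ₐ[K] Ω) (a b : Additive Ωˣ) : actU g (a + b) = actU g a + actU g b := by
  show Additive.ofMul (g • (Additive.toMul a * Additive.toMul b)) = _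
  rw [smul_mul']
  rfl

theorem actU_sub (g : Ω ≃ₐ[K] Ω) (a b : Additive Ωˣ) : actU g (a - b) = actU g a - actU g b := by
  show Additive.ofMul (g • (Additive.toMul a / Additive.toMul b)) = _
  rw [smul_div']
  rfl

theorem actU_ofMul (g : Ω ≃ₐ[K] Ω) (u : Ωˣ) : actU g (Additive.ofMul u) = Additive.ofMul (g • u) :=
  rfl

/-- Elements of `Kˣ` are fixed. -/
theorem actU_map (g : Ω ≃ₐ[K] Ω) (γ : Kˣ) :
    actU g (Additive.ofMul (Units.map (algebraMap K Ω : K →* Ω) γ))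
      = Additive.ofMul (Units.map (algebraMap K Ω : K →* Ω) γ) := by
  rw [actU_ofMul]
  congr 1
  apply Units.ext
  show g (algebraMap K Ω (γ : K)) = algebraMap K Ω (γ : K)
  exact g.commutes _

/-- **Kummer injectivity**: if the Kummer generators of `f`, `f'` differ by a `p`-th power then
`f - f'` is a twisted coboundary. -/
theorem sub_mem_twB_of_kummer (hχ : ∀ g : Ω ≃ₐ[K] Ω, g ζ = ζ ^ (χp g).val)
    {f f' : (Ω ≃ₐ[K] Ω) → ZMod p} {β β' : Ωˣ} {x x' γ : Kˣ}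
    (h1 : ∀ g : Ω ≃ₐ[K] Ω, zetaHom hζ (f g) = Additive.ofMul (g • β) - Additive.ofMul β)
    (hx : algebraMap K Ω (x : K) = ((β ^ p : Ωˣ) : Ω))
    (h1' : ∀ g : Ω ≃ₐ[K] Ω, zetaHom hζ (f' g) = Additive.ofMul (g • β') - Additive.ofMul β')
    (hx' : algebraMap K Ω (x' : K) = ((β' ^ p : Ωˣ) : Ω))
    (hγ : x = x' * γ ^ p) : f - f' ∈ twB χp := by
  set γΩ : Ωˣ := Units.map (algebraMap K Ω : K →* Ω) γ with hγΩ
  -- `β = β' γ ζ^t`
  have hpow : β ^ p = (β' * γΩ) ^ p := by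
    apply Units.ext
    rw [← hx, hγ, Units.val_mul, map_mul, hx', mul_pow, Units.val_mul]
    congr 1
    rw [Units.val_pow_eq_pow_val, Units.val_pow_eq_pow_val, map_pow]
    rfl
  have htors : p • (Additive.ofMul β - Additive.ofMul (β' * γΩ)) = 0 := by
    rw [nsmul_sub, sub_eq_zero]
    show Additive.ofMul (β ^ p) = Additive.ofMul ((β' * γΩ) ^ p)
    rw [hpow]
  obtain ⟨t, ht⟩ := zetaHom_surjective_torsion hζ _ htors
  have hβ : Additive.ofMul β - Additive.ofMul β' = Additive.ofMul γΩ + zetaHom hζ t := by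
    rw [ht]
    show Additive.ofMul β - Additive.ofMul β'
      = Additive.ofMul γΩ + (Additive.ofMul β - (Additive.ofMul β' + Additive.ofMul γΩ))
    abel
  refine ⟨t, fun g => ?_⟩
  apply zetaHom_injective hζ
  show zetaHom hζ (f g - f' g) = zetaHom hζ ((χp g - 1) * t)
  rw [map_sub, h1 g, h1' g]
  have h2 : Additive.ofMul (g • β) - Additive.ofMul β - (Additive.ofMul (g • β') - Additive.ofMul β')
      = actU g (Additive.ofMul β - Additive.ofMul β') - (Additive.ofMul β - Additive.ofMul β') := by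
    rw [actU_sub, actU_ofMul, actU_ofMul]
    abel
  rw [h2, hβ, actU_add, actU_map, ρ_zetaHom hζ χp hχ, sub_mul, one_mul, map_sub]
  abel

include hζ in
/-- **The Kummer bound**: `#H¹_LC(Gal(Ω/K), 𝔽_p(χp)) ≤ #Kˣ/(Kˣ)^p`. -/
theorem card_twH1_le_of_kummer
    (hH90 : ∀ F : (Ω ≃ₐ[K] Ω) → Additive Ωˣ, F ∈ LC.Z₁ Lv (U) →
      ∃ β : Ωˣ, ∀ g : Ω ≃ₐ[K] Ω, F g = Additive.ofMul (g • β) - Additive.ofMul β)
    (hχ : ∀ g : Ω ≃ₐ[K] Ω, g ζ = ζ ^ (χp g).val)
    [Finite (Kˣ ⧸ (powMonoidHom p : Kˣ →* Kˣ).range)] :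
    Finite (twH1 Lv χp) ∧
      Nat.card (twH1 Lv χp) ≤ Nat.card (Kˣ ⧸ (powMonoidHom p : Kˣ →* Kˣ).range) := by
  classical
  have hgen := fun f : ↥(twZ Lv χp) => exists_kummer_gen hζ hH90 hχ f.2
  choose β x h1 hx using hgen
  let κ : twH1 Lv χp → Kˣ ⧸ (powMonoidHom p : Kˣ →* Kˣ).range := fun c =>
    QuotientGroup.mk (x (Quotient.out c))
  have hinj : Function.Injective κ := by
    intro c c' h
    have h2 : (x (Quotient.out c'))⁻¹ * x (Quotient.out c) ∈ (powMonoidHom p : Kˣ →* Kˣ).range :=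
      QuotientGroup.eq.1 h.symm
    obtain ⟨γ, hγ⟩ := h2
    have h3 : x (Quotient.out c) = x (Quotient.out c') * γ ^ p := by
      rw [← powMonoidHom_apply, hγ, mul_inv_cancel_left]
    have h4 := sub_mem_twB_of_kummer hζ hχ (h1 _) (hx _) (h1 _) (hx _) h3
    have h5 : (Submodule.Quotient.mk (Quotient.out c) : twH1 Lv χp)
        = Submodule.Quotient.mk (Quotient.out c') := by
      rw [Submodule.Quotient.eq]
      exact h4
    have h6 : ∀ d : twH1 Lv χp, (Submodule.Quotient.mk (Quotient.out d) : twH1 Lv χp) = d :=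
      fun d => Quotient.out_eq' d
    rw [h6, h6] at h5
    exact h5
  exact ⟨Finite.of_injective κ hinj, Nat.card_le_card_of_injective κ hinj⟩

end Fermat.Agent.TW.Ord
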