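/-
S56 / Program G, block LOC-ord (helper19), file 10: from `𝔽_p`-coefficients to `k`-coefficients.

`k` a finite field containing `𝔽_p = ZMod p`, `χp : G → ZMod p`, `χ = algebraMap ∘ χp`.  Along an
`𝔽_p`-basis of `k`, `twH1 Lv χ` embeds in `(twH1 Lv χp)^d`, `d = [k : 𝔽_p]`.  Hence
`#twH1(χp) ≤ p²` implies `dim_k twH1(χ) ≤ 2`.
-/
import Mathlib
import Fermat.Agent.TW.Ord.Count

set_option autoImplicit false
set_option linter.unusedSectionVars false
set_option linter.style.haveILetI false

namespace Fermat.Agent.TW.Ord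

open Fermat.Agent.CFT Module

variable {G : Type} [Group G] (Lv : LevelStructure G) {p : ℕ} [Fact p.Prime]
  {k : Type} [Field k] [Algebra (ZMod p) k]

/-- An `𝔽_p`-linear functional maps `χ`-twisted homomorphisms to `χp`-twisted homomorphisms. -/
theorem comp_mem_twZ (χp : G → ZMod p) (lam : k →ₗ[ZMod p] ZMod p) {f : G → k}
    (hf : f ∈ twZ Lv (fun g => algebraMap (ZMod p) k (χp g))) :
    (fun g => lam (f g)) ∈ twZ Lv χp := by
  refine ⟨hf.1.comp lam, fun g h => ?_⟩
  show lam (f (g * h)) = χp g * lam (f h) + lam (f g)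
  rw [hf.2 g h, map_add, ← Algebra.smul_def, map_smul, smul_eq_mul]

variable [Finite k]

/-- **Reduction to `𝔽_p`-coefficients.** -/
theorem finrank_twH1_le_of_card (χp : G → ZMod p) (hfin : Finite (twH1 Lv χp))
    (hcard : Nat.card (twH1 Lv χp) ≤ p ^ 2) :
    Module.Finite k (twH1 Lv (fun g => algebraMap (ZMod p) k (χp g))) ∧
      finrank k (twH1 Lv (fun g => algebraMap (ZMod p) k (χp g))) ≤ 2 := by
  classical
  set χ : G → k := fun g => algebraMap (ZMod p) k (χp g) with hχ
  haveI : Module.Finite (ZMod p) k := Module.Finite.of_finite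
  set d := finrank (ZMod p) k with hd
  let b : Basis (Fin d) (ZMod p) k := Module.finBasis (ZMod p) k
  -- the map to `(twH1 χp)^d`
  let Θ : ↥(twZ Lv χ) → (Fin d → twH1 Lv χp) := fun f i =>
    Submodule.Quotient.mk ⟨fun g => b.coord i (f.1 g), comp_mem_twZ Lv χp (b.coord i) f.2⟩
  have hΘ : ∀ f f' : ↥(twZ Lv χ), Θ f = Θ f' →
      (Submodule.Quotient.mk f : twH1 Lv χ) = Submodule.Quotient.mk f' := by
    intro f f' h
    rw [Submodule.Quotient.eq]
    have hi : ∀ i, ∃ t : ZMod p, ∀ g, b.coord i (f.1 g) - b.coord i (f'.1 g) = (χp g - 1) * t := by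
      intro i
      have := congrFun h i
      rw [Submodule.Quotient.eq] at this
      obtain ⟨t, ht⟩ := this
      exact ⟨t, fun g => ht g⟩
    choose t ht using hi
    refine ⟨∑ i, t i • b i, fun g => ?_⟩
    show f.1 g - f'.1 g = (χ g - 1) * ∑ i, t i • b i
    have h1 : f.1 g - f'.1 g = ∑ i, ((χp g - 1) * t i) • b i := by
      rw [← b.sum_repr (f.1 g - f'.1 g)]
      refine Finset.sum_congr rfl fun i _ => ?_
      rw [map_sub, Finsupp.sub_apply]
      have := ht i g
      simp only [Basis.coord_apply] at this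
      rw [this]
    rw [h1, Finset.mul_sum]
    refine Finset.sum_congr rfl fun i _ => ?_
    rw [mul_smul, Algebra.smul_def, Algebra.smul_def, map_sub, map_one]
  -- the induced injection
  let Θ' : twH1 Lv χ → (Fin d → twH1 Lv χp) := fun x =>
    Quotient.liftOn' x Θ (by
      intro f f' h
      have h1 : (Submodule.Quotient.mk f : twH1 Lv χ) = Submodule.Quotient.mk f' :=
        Quotient.sound' h
      rw [Submodule.Quotient.eq] at h1
      obtain ⟨t, ht⟩ := h1
      funext i
      show (Submodule.Quotient.mk _ : twH1 Lv χp) = Submodule.Quotient.mk _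
      rw [Submodule.Quotient.eq]
      refine ⟨b.coord i t, fun g => ?_⟩
      show b.coord i (f.1 g) - b.coord i (f'.1 g) = (χp g - 1) * b.coord i t
      have h2 : f.1 g - f'.1 g = (χ g - 1) * t := ht g
      rw [← map_sub, h2]
      have h3 : (χ g - 1) * t = (χp g - 1) • t := by
        rw [Algebra.smul_def, map_sub, map_one]
      rw [h3, map_smul, smul_eq_mul])
  have hinj : Function.Injective Θ' := by
    intro x y h
    induction x using Quotient.inductionOn' with | _ f => ?_
    induction y using Quotient.inductionOn' with | _ f' => ?_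
    exact hΘ f f' h
  haveI := hfin
  haveI : Finite (twH1 Lv χ) := Finite.of_injective Θ' hinj
  have hmf : Module.Finite k (twH1 Lv χ) := Module.Finite.of_finite
  refine ⟨hmf, ?_⟩
  have hc1 : Nat.card (twH1 Lv χ) ≤ Nat.card (Fin d → twH1 Lv χp) :=
    Nat.card_le_card_of_injective Θ' hinj
  have hc2 : Nat.card (Fin d → twH1 Lv χp) = Nat.card (twH1 Lv χp) ^ d := by
    rw [Nat.card_fun, Nat.card_fin]
  have hc3 : Nat.card k = p ^ d := by
    rw [Module.natCard_eq_pow_finrank (K := ZMod p) (V := k), Nat.card_zmod]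
  have hc4 : Nat.card (twH1 Lv χ) = Nat.card k ^ finrank k (twH1 Lv χ) :=
    Module.natCard_eq_pow_finrank (K := k)
  have hp1 : 1 < p ^ d := by
    rw [← hc3]
    exact Finite.one_lt_card
  have hc5 : (p ^ d) ^ finrank k (twH1 Lv χ) ≤ (p ^ d) ^ 2 := by
    rw [← hc3, ← hc4]
    calc Nat.card (twH1 Lv χ) ≤ Nat.card (twH1 Lv χp) ^ d := hc2 ▸ hc1
      _ ≤ (p ^ 2) ^ d := Nat.pow_le_pow_left hcard d
      _ = Nat.card k ^ 2 := by rw [hc3, ← pow_mul, ← pow_mul, mul_comm]
  exact (Nat.pow_le_pow_iff_right hp1).1 hc5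

end Fermat.Agent.TW.Ord
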