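/-
S56 / Program G, block LOC-ord (helper19), file 1: matrix algebra over the dual numbers.

`R : G →* M₂(k[ε])`, `B` a unit of `M₂(k[ε])`.  If, for `σ` in a subgroup `S`, the matrix
`B⁻¹ R σ B` is upper triangular with diagonal entries in `k` (no `ε`-part), then on `S` the tangent
cochain of `R` is, up to the coboundary of a fixed `m`, valued in `B₀ (k E₁₂) B₀⁻¹`, `B₀ = B mod ε`.
-/
import Mathlib
import Fermat.Agent.TW.Sel.DualMat

set_option autoImplicit false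
set_option linter.unusedSectionVars false

namespace Fermat.Agent.TW.Ord

open Matrix Fermat.Agent.TW.Sel

variable {k : Type*} [Field k] {G : Type*} [Group G]

local notation "M2" => Matrix (Fin 2) (Fin 2)

/-- Conjugation of a matrix-valued hom by a unit: `σ ↦ U⁻¹ * R σ * U`. -/
def conjHom {A : Type*} [Monoid A] (U : Aˣ) (R : G →* A) : G →* A where
  toFun σ := ((U⁻¹ : Aˣ) : A) * R σ * (U : A)
  map_one' := by simp
  map_mul' σ τ := by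
    rw [map_mul]
    calc ((U⁻¹ : Aˣ) : A) * (R σ * R τ) * (U : A)
        = ((U⁻¹ : Aˣ) : A) * R σ * ((U : A) * ((U⁻¹ : Aˣ) : A)) * R τ * (U : A) := by
          rw [Units.mul_inv, mul_one]; simp only [mul_assoc]
      _ = _ := by simp only [mul_assoc]

theorem conjHom_apply {A : Type*} [Monoid A] (U : Aˣ) (R : G →* A) (σ : G) :
    conjHom U R σ = ((U⁻¹ : Aˣ) : A) * R σ * (U : A) := rfl

/-- The constant matrix `A` over `k[ε]`. -/
abbrev cst (A : M2 k) : M2 (DualNumber k) := mlift A 0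

theorem cst_mul_cst (A A' : M2 k) : cst A * cst A' = cst (A * A') := by
  apply dualMat_ext
  · rw [mfst_mul]; rfl
  · rw [msnd_mul]; simp

theorem cst_one : cst (1 : M2 k) = 1 := by
  apply dualMat_ext
  · simp
  · simp

/-- A unit of `M₂(k)` as a unit of `M₂(k[ε])`. -/
def cstUnit (A : (M2 k)ˣ) : (M2 (DualNumber k))ˣ :=
  ⟨cst (A : M2 k), cst ((A⁻¹ : (M2 k)ˣ) : M2 k),
    by rw [cst_mul_cst, Units.mul_inv, cst_one], by rw [cst_mul_cst, Units.inv_mul, cst_one]⟩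

@[simp] theorem val_cstUnit (A : (M2 k)ˣ) :
    ((cstUnit A : (M2 (DualNumber k))ˣ) : M2 (DualNumber k)) = cst (A : M2 k) := rfl

@[simp] theorem val_inv_cstUnit (A : (M2 k)ˣ) :
    (((cstUnit A)⁻¹ : (M2 (DualNumber k))ˣ) : M2 (DualNumber k))
      = cst ((A⁻¹ : (M2 k)ˣ) : M2 k) := rfl

theorem mfst_cst_mul (A : M2 k) (X : M2 (DualNumber k)) : mfst (cst A * X) = A * mfst X := by
  rw [mfst_mul]; rfl

theorem msnd_cst_mul (A : M2 k) (X : M2 (DualNumber k)) : msnd (cst A * X) = A * msnd X := by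
  rw [msnd_mul]; simp

theorem mfst_mul_cst (A : M2 k) (X : M2 (DualNumber k)) : mfst (X * cst A) = mfst X * A := by
  rw [mfst_mul]; rfl

theorem msnd_mul_cst (A : M2 k) (X : M2 (DualNumber k)) : msnd (X * cst A) = msnd X * A := by
  rw [msnd_mul]; simp

/-- Reduction and tangent cochain of a conjugate by a constant matrix. -/
theorem redHom_conjHom_cst (A : (M2 k)ˣ) (R : G →* M2 (DualNumber k)) (σ : G) :
    redHom (conjHom (cstUnit A) R) σ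
      = ((A⁻¹ : (M2 k)ˣ) : M2 k) * redHom R σ * (A : M2 k) := by
  rw [redHom_apply, conjHom_apply, val_inv_cstUnit, val_cstUnit, mfst_mul_cst, mfst_cst_mul]
  rfl

theorem tanCochain_conjHom_cst (A : (M2 k)ˣ) (R : G →* M2 (DualNumber k)) (σ : G) :
    tanCochain (conjHom (cstUnit A) R) σ
      = ((A⁻¹ : (M2 k)ˣ) : M2 k) * tanCochain R σ * (A : M2 k) := by
  rw [tanCochain, redHom_conjHom_cst, conjHom_apply, val_inv_cstUnit, val_cstUnit, msnd_mul_cst,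
    msnd_cst_mul, tanCochain]
  have h : (A : M2 k) * ((A⁻¹ : (M2 k)ˣ) : M2 k) = 1 := Units.mul_inv A
  calc ((A⁻¹ : (M2 k)ˣ) : M2 k) * msnd (R σ) * (A : M2 k)
        * (((A⁻¹ : (M2 k)ˣ) : M2 k) * redHom R σ⁻¹ * (A : M2 k))
      = ((A⁻¹ : (M2 k)ˣ) : M2 k) * msnd (R σ) * ((A : M2 k) * ((A⁻¹ : (M2 k)ˣ) : M2 k))
          * redHom R σ⁻¹ * (A : M2 k) := by simp only [mul_assoc]
    _ = _ := by rw [h, mul_one]; simp only [mul_assoc]

/-- Every unit of `M₂(k[ε])` is `cst B₀ * (1 + ε m₂)`. -/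
theorem unit_decomp (B : (M2 (DualNumber k))ˣ) :
    ∃ (B₀ : (M2 k)ˣ) (m₂ : M2 k), (B₀ : M2 k) = mfst (B : M2 (DualNumber k)) ∧
      B = cstUnit B₀ * unitOfTangent m₂ := by
  have h1 : mfst (B : M2 (DualNumber k)) * mfst ((B⁻¹ : (M2 (DualNumber k))ˣ) : M2 (DualNumber k))
      = 1 := by rw [← mfst_mul, Units.mul_inv, mfst_one]
  have h2 : mfst ((B⁻¹ : (M2 (DualNumber k))ˣ) : M2 (DualNumber k)) * mfst (B : M2 (DualNumber k))
      = 1 := by rw [← mfst_mul, Units.inv_mul, mfst_one]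
  refine ⟨⟨_, _, h1, h2⟩,
    mfst ((B⁻¹ : (M2 (DualNumber k))ˣ) : M2 (DualNumber k)) * msnd (B : M2 (DualNumber k)),
    rfl, ?_⟩
  apply Units.ext
  rw [Units.val_mul, val_cstUnit, val_unitOfTangent]
  apply dualMat_ext
  · rw [mfst_cst_mul, mfst_mlift, mul_one]
  · rw [msnd_cst_mul, msnd_mlift, ← mul_assoc]
    show msnd (B : M2 (DualNumber k)) = mfst (B : M2 (DualNumber k))
      * mfst ((B⁻¹ : (M2 (DualNumber k))ˣ) : M2 (DualNumber k)) * msnd (B : M2 (DualNumber k))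
    rw [h1, one_mul]

/-- The upper-right elementary matrix times `t`. -/
def e12 (t : k) : M2 k := !![0, t; 0, 0]

/-- **Tangent cochain of a triangularisable lift.**  If `B⁻¹ R σ B` is upper triangular with
`ε`-free diagonal for all `σ` in a subgroup `S`, then for `σ ∈ S`
`c σ = B₀ (t E₁₂) B₀⁻¹ + m - rb σ m rb σ⁻¹`. -/
theorem tanCochain_of_triangular (R : G →* M2 (DualNumber k)) (B : (M2 (DualNumber k))ˣ)
    (S : Subgroup G)
    (hT : ∀ σ ∈ S, (conjHom B R σ) 1 0 = 0 ∧ ((conjHom B R σ) 0 0).snd = 0 ∧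
      ((conjHom B R σ) 1 1).snd = 0) :
    ∃ (B₀ : (M2 k)ˣ) (m : M2 k), (B₀ : M2 k) = mfst (B : M2 (DualNumber k)) ∧
      ∀ σ ∈ S, ∃ t : k, tanCochain R σ
        = (B₀ : M2 k) * e12 t * ((B₀⁻¹ : (M2 k)ˣ) : M2 k)
          + (m - redHom R σ * m * redHom R σ⁻¹) := by
  obtain ⟨B₀, m₂, hB₀, hB⟩ := unit_decomp B
  set R'' : G →* M2 (DualNumber k) := conjHom (cstUnit B₀) R with hR''
  -- `conjHom B R = conj of R'' by (1 + ε m₂)`
  have hconj : ∀ σ, conjHom B R σ = mlift 1 (-m₂) * R'' σ * mlift 1 (-(-m₂)) := by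
    intro σ
    rw [neg_neg, hR'', conjHom_apply, conjHom_apply, hB, _root_.mul_inv_rev, Units.val_mul, Units.val_mul,
      val_inv_unitOfTangent, val_unitOfTangent]
    simp only [mul_assoc]
  have hc := fun σ => tanCochain_conj (R := R'') (R' := conjHom B R) (-m₂) hconj σ
  refine ⟨B₀, (B₀ : M2 k) * m₂ * ((B₀⁻¹ : (M2 k)ˣ) : M2 k), hB₀, fun σ hσ => ?_⟩
  -- the tangent cochain of the triangular conjugate
  obtain ⟨h10, h00, h11⟩ := hT σ hσ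
  obtain ⟨h10', -, -⟩ := hT σ⁻¹ (S.inv_mem hσ)
  have hcT : tanCochain (conjHom B R) σ
      = e12 ((msnd (conjHom B R σ)) 0 1 * (mfst (conjHom B R σ⁻¹)) 1 1) := by
    rw [tanCochain, redHom_apply]
    generalize conjHom B R σ = T at h10 h00 h11 ⊢
    generalize conjHom B R σ⁻¹ = T' at h10' ⊢
    ext i j
    fin_cases i <;> fin_cases j <;>
      simp [Matrix.mul_apply, Fin.sum_univ_two, e12, h10, h00, h11, h10']
  refine ⟨(msnd (conjHom B R σ)) 0 1 * (mfst (conjHom B R σ⁻¹)) 1 1, ?_⟩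
  have h1 := hc σ
  rw [hcT, hR'', tanCochain_conjHom_cst, redHom_conjHom_cst, redHom_conjHom_cst] at h1
  -- solve for `tanCochain R σ`
  have hU : (B₀ : M2 k) * ((B₀⁻¹ : (M2 k)ˣ) : M2 k) = 1 := Units.mul_inv B₀
  have hU' : ((B₀⁻¹ : (M2 k)ˣ) : M2 k) * (B₀ : M2 k) = 1 := Units.inv_mul B₀
  have h2 : tanCochain R σ = (B₀ : M2 k)
      * (((B₀⁻¹ : (M2 k)ˣ) : M2 k) * tanCochain R σ * (B₀ : M2 k))
      * ((B₀⁻¹ : (M2 k)ˣ) : M2 k) := by
    simp only [← mul_assoc]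
    rw [hU, one_mul, mul_assoc, hU, mul_one]
  rw [h2]
  have h3 : ((B₀⁻¹ : (M2 k)ˣ) : M2 k) * tanCochain R σ * (B₀ : M2 k)
      = e12 ((msnd (conjHom B R σ)) 0 1 * (mfst (conjHom B R σ⁻¹)) 1 1)
        - (-m₂ - ((B₀⁻¹ : (M2 k)ˣ) : M2 k) * redHom R σ * (B₀ : M2 k) * -m₂ *
          (((B₀⁻¹ : (M2 k)ˣ) : M2 k) * redHom R σ⁻¹ * (B₀ : M2 k))) := by
    rw [h1]; abel
  rw [h3]
  generalize e12 ((msnd (conjHom B R σ)) 0 1 * (mfst (conjHom B R σ⁻¹)) 1 1) = E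
  have h4 : (B₀ : M2 k) * (((B₀⁻¹ : (M2 k)ˣ) : M2 k) * redHom R σ * (B₀ : M2 k) * m₂ *
      (((B₀⁻¹ : (M2 k)ˣ) : M2 k) * redHom R σ⁻¹ * (B₀ : M2 k))) * ((B₀⁻¹ : (M2 k)ˣ) : M2 k)
      = redHom R σ * ((B₀ : M2 k) * m₂ * ((B₀⁻¹ : (M2 k)ˣ) : M2 k)) * redHom R σ⁻¹ := by
    calc (B₀ : M2 k) * (((B₀⁻¹ : (M2 k)ˣ) : M2 k) * redHom R σ * (B₀ : M2 k) * m₂ *
          (((B₀⁻¹ : (M2 k)ˣ) : M2 k) * redHom R σ⁻¹ * (B₀ : M2 k))) * ((B₀⁻¹ : (M2 k)ˣ) : M2 k)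
        = ((B₀ : M2 k) * ((B₀⁻¹ : (M2 k)ˣ) : M2 k)) * redHom R σ * ((B₀ : M2 k) * m₂ *
          ((B₀⁻¹ : (M2 k)ˣ) : M2 k)) * redHom R σ⁻¹ *
            ((B₀ : M2 k) * ((B₀⁻¹ : (M2 k)ˣ) : M2 k)) := by simp only [mul_assoc]
      _ = _ := by rw [hU, one_mul, mul_one]
  simp only [mul_neg, neg_mul, sub_neg_eq_add]
  generalize ((B₀⁻¹ : (M2 k)ˣ) : M2 k) * redHom R σ * (B₀ : M2 k) * m₂ *
      (((B₀⁻¹ : (M2 k)ˣ) : M2 k) * redHom R σ⁻¹ * (B₀ : M2 k)) = Y at h4 ⊢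
  rw [← h4]
  simp only [mul_sub, sub_mul, mul_add, add_mul, mul_neg, neg_mul]
  abel

end Fermat.Agent.TW.Ord
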