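/-
S56 / Program G, block LOC-ord (helper19), file 7: conjugation of `E₁₂` and `diag(1,-1)` by a
triangularisable matrix.

`T = B₀⁻¹ M B₀` upper triangular, `M M' = 1`:
* `T₀₀ = c T₁₁` ⇒ `M (B₀ (t E₁₂) B₀⁻¹) M' = B₀ (c t E₁₂) B₀⁻¹`;
* `T₁₁² = 1` ⇒ `M (B₀ D B₀⁻¹) M' - B₀ D B₀⁻¹ = B₀ (s E₁₂) B₀⁻¹`, `D = diag(1,-1)`, `s = -2 T₀₁ T₁₁`.
-/
import Mathlib
import Fermat.Agent.TW.Ord.Tri

set_option autoImplicit false
set_option linter.unusedSectionVars false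
set_option linter.unnecessarySeqFocus false

namespace Fermat.Agent.TW.Ord

open Matrix

variable {k : Type*} [Field k]

local notation "M2" => Matrix (Fin 2) (Fin 2)

/-- `diag(1, -1)`. -/
def dg : M2 k := !![1, 0; 0, -1]

theorem e12_smul (c t : k) : c • e12 t = e12 (c * t) := by
  ext i j
  fin_cases i <;> fin_cases j <;> simp [e12]

theorem e12_ne_zero {t : k} (ht : t ≠ 0) : e12 t ≠ 0 := by
  intro h
  have := congrFun (congrFun h 0) 1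
  simp [e12] at this
  exact ht this

theorem trace_e12 (t : k) : (e12 t).trace = 0 := by
  simp [e12, Matrix.trace_fin_two]

theorem trace_dg : (dg : M2 k).trace = 0 := by
  simp [dg, Matrix.trace_fin_two]

theorem dg_ne_e12 (t : k) : (dg : M2 k) ≠ e12 t := by
  intro h
  have := congrFun (congrFun h 0) 0
  simp [dg, e12] at this

section Conj

variable (B₀ : (M2 k)ˣ)

/-- Conjugation `X ↦ B₀ X B₀⁻¹`. -/
def cj (X : M2 k) : M2 k := (B₀ : M2 k) * X * ((B₀⁻¹ : (M2 k)ˣ) : M2 k)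

theorem cj_injective : Function.Injective (cj B₀) := by
  intro X Y h
  have hU' : ((B₀⁻¹ : (M2 k)ˣ) : M2 k) * (B₀ : M2 k) = 1 := Units.inv_mul B₀
  have key : ∀ Z : M2 k, ((B₀⁻¹ : (M2 k)ˣ) : M2 k) * cj B₀ Z * (B₀ : M2 k) = Z := by
    intro Z
    calc ((B₀⁻¹ : (M2 k)ˣ) : M2 k) * ((B₀ : M2 k) * Z * ((B₀⁻¹ : (M2 k)ˣ) : M2 k)) * (B₀ : M2 k)
        = (((B₀⁻¹ : (M2 k)ˣ) : M2 k) * (B₀ : M2 k)) * Z
          * (((B₀⁻¹ : (M2 k)ˣ) : M2 k) * (B₀ : M2 k)) := by simp only [mul_assoc]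
      _ = Z := by rw [hU', one_mul, mul_one]
  rw [← key X, ← key Y, h]

theorem cj_smul (c : k) (X : M2 k) : cj B₀ (c • X) = c • cj B₀ X := by
  rw [cj, cj, mul_smul_comm, smul_mul_assoc]

theorem cj_add (X Y : M2 k) : cj B₀ (X + Y) = cj B₀ X + cj B₀ Y := by
  rw [cj, cj, cj, mul_add, add_mul]

theorem trace_cj (X : M2 k) : (cj B₀ X).trace = X.trace := by
  rw [cj, Matrix.trace_mul_comm, ← mul_assoc, Units.inv_mul, one_mul]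

/-- If `T X = Y T` for `T = B₀⁻¹ M B₀`, then `M (cj X) M' = cj Y` when `M M' = 1`. -/
theorem conj_cj_of_comm {M M' : M2 k} (hMM' : M * M' = 1) {X Y : M2 k}
    (h : (((B₀⁻¹ : (M2 k)ˣ) : M2 k) * M * (B₀ : M2 k)) * X
      = Y * (((B₀⁻¹ : (M2 k)ˣ) : M2 k) * M * (B₀ : M2 k))) :
    M * cj B₀ X * M' = cj B₀ Y := by
  have hU : (B₀ : M2 k) * ((B₀⁻¹ : (M2 k)ˣ) : M2 k) = 1 := Units.mul_inv B₀
  calc M * ((B₀ : M2 k) * X * ((B₀⁻¹ : (M2 k)ˣ) : M2 k)) * M'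
      = ((B₀ : M2 k) * ((B₀⁻¹ : (M2 k)ˣ) : M2 k)) * M * (B₀ : M2 k) * X
          * ((B₀⁻¹ : (M2 k)ˣ) : M2 k) * M' := by rw [hU, one_mul]; simp only [mul_assoc]
    _ = (B₀ : M2 k) * ((((B₀⁻¹ : (M2 k)ˣ) : M2 k) * M * (B₀ : M2 k)) * X)
          * ((B₀⁻¹ : (M2 k)ˣ) : M2 k) * M' := by simp only [mul_assoc]
    _ = (B₀ : M2 k) * Y * ((B₀⁻¹ : (M2 k)ˣ) : M2 k) * M
          * ((B₀ : M2 k) * ((B₀⁻¹ : (M2 k)ˣ) : M2 k)) * M' := by rw [h]; simp only [mul_assoc]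
    _ = (B₀ : M2 k) * Y * ((B₀⁻¹ : (M2 k)ˣ) : M2 k) * (M * M') := by
          rw [hU, mul_one]; simp only [mul_assoc]
    _ = cj B₀ Y := by rw [hMM', mul_one]; rfl

/-- Conjugation of the nilpotent line. -/
theorem conj_cj_e12 {M M' : M2 k} (hMM' : M * M' = 1) (c t : k)
    (h10 : (((B₀⁻¹ : (M2 k)ˣ) : M2 k) * M * (B₀ : M2 k)) 1 0 = 0)
    (h00 : (((B₀⁻¹ : (M2 k)ˣ) : M2 k) * M * (B₀ : M2 k)) 0 0
      = c * (((B₀⁻¹ : (M2 k)ˣ) : M2 k) * M * (B₀ : M2 k)) 1 1) :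
    M * cj B₀ (e12 t) * M' = cj B₀ (e12 (c * t)) := by
  apply conj_cj_of_comm B₀ hMM'
  generalize ((B₀⁻¹ : (M2 k)ˣ) : M2 k) * M * (B₀ : M2 k) = T at h10 h00
  ext i j
  fin_cases i <;> fin_cases j <;>
    simp [e12, Matrix.mul_apply, Fin.sum_univ_two, h10, h00] <;> ring

/-- Conjugation of `diag(1,-1)`. -/
theorem conj_cj_dg {M M' : M2 k} (hMM' : M * M' = 1)
    (h10 : (((B₀⁻¹ : (M2 k)ˣ) : M2 k) * M * (B₀ : M2 k)) 1 0 = 0)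
    (h11 : (((B₀⁻¹ : (M2 k)ˣ) : M2 k) * M * (B₀ : M2 k)) 1 1
      * (((B₀⁻¹ : (M2 k)ˣ) : M2 k) * M * (B₀ : M2 k)) 1 1 = 1) :
    M * cj B₀ dg * M' - cj B₀ dg
      = cj B₀ (e12 (-2 * (((B₀⁻¹ : (M2 k)ˣ) : M2 k) * M * (B₀ : M2 k)) 0 1
          * (((B₀⁻¹ : (M2 k)ˣ) : M2 k) * M * (B₀ : M2 k)) 1 1)) := by
  have h := conj_cj_of_comm B₀ hMM' (X := dg)
    (Y := dg + e12 (-2 * (((B₀⁻¹ : (M2 k)ˣ) : M2 k) * M * (B₀ : M2 k)) 0 1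
          * (((B₀⁻¹ : (M2 k)ˣ) : M2 k) * M * (B₀ : M2 k)) 1 1)) ?_
  · rw [h, cj_add]; abel
  · generalize ((B₀⁻¹ : (M2 k)ˣ) : M2 k) * M * (B₀ : M2 k) = T at h10 h11
    ext i j
    fin_cases i <;> fin_cases j <;>
      simp [dg, e12, Matrix.mul_apply, Fin.sum_univ_two, h10]
    linear_combination (2 * T 0 1) * h11

end Conj

end Fermat.Agent.TW.Ord
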