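/-
S56 / Program G, block LOC-ord (helper19), file 2: rigidity of the LITERAL Prelude condition
`IsStrictOrdinaryAt` over the dual numbers.

`r : MatRep k[ε]` with `IsStrictOrdinaryAt p` and `DetIsCyclotomic p`, `2 ≠ 0` in `k`, `P | p`.
The literal condition gives a basis `b` (columns of `B`) with `B⁻¹ r σ B = [[x, y], [0, z]]` on `D_P`,
`x = ω(σ) z` and `x z = det = ω(σ)` (as `p = 0` in `k[ε]`), hence `z² = 1`, hence `z, x ∈ k`
(no `ε`-part), and `z = 1` on inertia.
-/
import Mathlib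
import Fermat.Agent.TW.Ord.Tri
import Fermat.Agent.S53.MatModel
import Fermat.Agent.Pseudo.CycloPow
import Fermat.Prelude.Def_GaloisRep_StrictOrdinary

set_option autoImplicit false
set_option linter.unusedSectionVars false

namespace Fermat.Agent.TW.Ord

open Matrix Fermat.Agent.TW.Sel Fermat.Agent.S53

local notation "M2" => Matrix (Fin 2) (Fin 2)
local notation "Qb" => AlgebraicClosure ℚ
local notation "GQ" => (AlgebraicClosure ℚ ≃ₐ[ℚ] AlgebraicClosure ℚ)

section BasisUnit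

variable {A : Type*} [CommRing A]

/-- The unit matrix of a basis of `A²`: its columns are the basis vectors. -/
noncomputable def basisUnit (b : Module.Basis (Fin 2) A (Fin 2 → A)) : (M2 A)ˣ :=
  ⟨(Pi.basisFun A (Fin 2)).toMatrix b, b.toMatrix (Pi.basisFun A (Fin 2)),
    Module.Basis.toMatrix_mul_toMatrix_flip _ _, Module.Basis.toMatrix_mul_toMatrix_flip _ _⟩

theorem basisUnit_conj_apply (b : Module.Basis (Fin 2) A (Fin 2 → A)) (M : M2 A) (i j : Fin 2) :
    ((((basisUnit b)⁻¹ : (M2 A)ˣ) : M2 A) * M * (basisUnit b : M2 A)) i j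
      = b.repr (M *ᵥ b j) i := by
  have h := basis_toMatrix_mul_linearMap_toMatrix_mul_basis_toMatrix b (Pi.basisFun A (Fin 2))
    b (Pi.basisFun A (Fin 2)) (Matrix.toLin' M)
  rw [LinearMap.toMatrix_eq_toMatrix', LinearMap.toMatrix'_toLin'] at h
  show (b.toMatrix (Pi.basisFun A (Fin 2)) * M * (Pi.basisFun A (Fin 2)).toMatrix b) i j = _
  rw [h, LinearMap.toMatrix_apply, Matrix.toLin'_apply]

/-- The `(1,1)` entry of the conjugate, from the quotient condition. -/
theorem basisUnit_conj_one_one (b : Module.Basis (Fin 2) A (Fin 2 → A)) (M : M2 A) {z : A}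
    (hz : M *ᵥ (b 1) - z • b 1 ∈ Submodule.span A {b 0}) :
    ((((basisUnit b)⁻¹ : (M2 A)ˣ) : M2 A) * M * (basisUnit b : M2 A)) 1 1 = z := by
  have hb01 : b.repr (b 0) 1 = 0 := by rw [b.repr_self]; simp
  have hb11 : b.repr (b 1) 1 = 1 := by rw [b.repr_self]; simp
  obtain ⟨y, hy⟩ := Submodule.mem_span_singleton.1 hz
  have hc1 : M *ᵥ (b 1) = z • b 1 + y • b 0 := by rw [hy]; abel
  rw [basisUnit_conj_apply, hc1, map_add, map_smul, map_smul, Finsupp.add_apply,
    Finsupp.smul_apply, Finsupp.smul_apply, hb11, hb01, smul_eq_mul, smul_eq_mul, mul_one,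
    mul_zero, add_zero]

/-- The first column of the conjugate, from the line condition. -/
theorem basisUnit_conj_col_zero (b : Module.Basis (Fin 2) A (Fin 2 → A)) (M : M2 A) {x : A}
    (hx : M *ᵥ (b 0) = x • b 0) :
    ((((basisUnit b)⁻¹ : (M2 A)ˣ) : M2 A) * M * (basisUnit b : M2 A)) 1 0 = 0 ∧
    ((((basisUnit b)⁻¹ : (M2 A)ˣ) : M2 A) * M * (basisUnit b : M2 A)) 0 0 = x := by
  have hb01 : b.repr (b 0) 1 = 0 := by rw [b.repr_self]; simp
  have hb00 : b.repr (b 0) 0 = 1 := by rw [b.repr_self]; simp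
  refine ⟨?_, ?_⟩
  · rw [basisUnit_conj_apply, hx, map_smul, Finsupp.smul_apply, hb01, smul_zero]
  · rw [basisUnit_conj_apply, hx, map_smul, Finsupp.smul_apply, hb00, smul_eq_mul, mul_one]

end BasisUnit

variable {k : Type} [Field k]

/-- In `k[ε]` with `2 ≠ 0`, `z * z = 1` forces `z ∈ k`. -/
theorem snd_eq_zero_of_mul_self_eq_one (h2 : (2 : k) ≠ 0) {z : DualNumber k} (hz : z * z = 1) :
    z.snd = 0 := by
  have h1 : z.fst * z.fst = 1 := by
    have := congrArg TrivSqZeroExt.fst hz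
    simpa using this
  have h3 : z.fst * z.snd + z.fst * z.snd = 0 := by
    have := congrArg TrivSqZeroExt.snd hz
    simpa [TrivSqZeroExt.snd_mul, mul_comm] using this
  have h4 : z.fst ≠ 0 := fun h => by rw [h, mul_zero] at h1; exact zero_ne_one h1
  have h5 : (2 : k) * z.fst * z.snd = 0 := by linear_combination h3
  rcases mul_eq_zero.1 h5 with h | h
  · rcases mul_eq_zero.1 h with h | h
    · exact absurd h h2
    · exact absurd h h4
  · exact h

/-- `p` in the maximal ideal of `k[ε]` means `p = 0` in `k[ε]`. -/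
theorem natCast_dualNumber_eq_zero {p : ℕ}
    (hp : (p : DualNumber k) ∈ IsLocalRing.maximalIdeal (DualNumber k)) :
    (p : DualNumber k) = 0 := by
  rw [IsLocalRing.mem_maximalIdeal, mem_nonunits_iff, TrivSqZeroExt.isUnit_iff_isUnit_fst,
    isUnit_iff_ne_zero, not_not] at hp
  have h1 : (p : DualNumber k) = TrivSqZeroExt.inl (p : k) := by
    rw [← TrivSqZeroExt.inl_natCast]
  rw [h1] at hp ⊢
  rw [TrivSqZeroExt.fst_inl] at hp
  rw [hp, TrivSqZeroExt.inl_zero]

/-- **Rigidity of the literal strict-ordinary condition over `k[ε]`.** -/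
theorem triangular_of_strictOrdinary {p : ℕ} [Fact p.Prime] (h2 : (2 : k) ≠ 0)
    (r : MatRep (DualNumber k)) (hso : r.toAdic.IsStrictOrdinaryAt p)
    (hdet : r.toAdic.DetIsCyclotomic p) (P : ValuationSubring Qb) (hP : P.LiesOverPrime p) :
    ∃ B : (M2 (DualNumber k))ˣ,
      (∀ σ ∈ P.decompositionSubgroup ℚ,
        (conjHom B r.toHom σ) 1 0 = 0 ∧
        ((conjHom B r.toHom σ) 0 0).snd = 0 ∧ ((conjHom B r.toHom σ) 1 1).snd = 0 ∧
        (conjHom B r.toHom σ) 1 1 * (conjHom B r.toHom σ) 1 1 = 1 ∧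
        ∀ a : ℕ, (∀ μ : Qb, μ ^ p = 1 → σ μ = μ ^ a) →
          (conjHom B r.toHom σ) 0 0 = (a : DualNumber k) * (conjHom B r.toHom σ) 1 1) ∧
      (∀ σ ∈ P.inertiaSubgroupIn ℚ, (conjHom B r.toHom σ) 1 1 = 1) := by
  have : NeZero p := ⟨(Fact.out : p.Prime).ne_zero⟩
  obtain ⟨hp, hall⟩ := hso
  have hp0 : (p : DualNumber k) = 0 := natCast_dualNumber_eq_zero hp
  have hbot : Ideal.span {(((p ^ 1 : ℕ)) : DualNumber k)} = ⊥ := by
    rw [pow_one, hp0]; exact Ideal.span_singleton_eq_bot.2 rfl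
  obtain ⟨L, ⟨b0, hL0⟩, -, hI0, hxz0⟩ := hall P hP
  -- transport to plain `Fin 2 → k[ε]`
  obtain ⟨b, hI, hxz⟩ : ∃ b : Module.Basis (Fin 2) (DualNumber k) (Fin 2 → DualNumber k),
      (∀ σ ∈ P.inertiaSubgroupIn ℚ,
        (r σ) *ᵥ (b 1) - (1 : DualNumber k) • b 1 ∈ Submodule.span (DualNumber k) {b 0}) ∧
      (∀ σ ∈ P.decompositionSubgroup ℚ, ∃ x z : DualNumber k,
        (r σ) *ᵥ (b 0) = x • b 0 ∧
        (r σ) *ᵥ (b 1) - z • b 1 ∈ Submodule.span (DualNumber k) {b 0} ∧
        ∀ (n a : ℕ), (∀ μ : Qb, μ ^ p ^ n = 1 → σ μ = μ ^ a) →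
          x - (a : DualNumber k) * z ∈ Ideal.span {((p ^ n : ℕ) : DualNumber k)}) := by
    refine ⟨b0, fun σ hσ => ?_, fun σ hσ => ?_⟩
    · have := hI0 σ hσ (b0 1)
      rw [hL0] at this
      rw [one_smul]
      exact this
    · obtain ⟨x, z, hx, hz, hcyc⟩ := hxz0 σ hσ
      refine ⟨x, z, hx (b0 0) (by rw [hL0]; exact Submodule.mem_span_singleton_self _), ?_, hcyc⟩
      have := hz (b0 1)
      rw [hL0] at this
      exact this
  refine ⟨basisUnit b, fun σ hσ => ?_, fun σ hσ => ?_⟩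
  · obtain ⟨x, z, hx, hz, hcyc⟩ := hxz σ hσ
    obtain ⟨e10, e00⟩ := basisUnit_conj_col_zero b (r σ) hx
    have e11 := basisUnit_conj_one_one b (r σ) hz
    rw [← conjHom_apply (basisUnit b) r.toHom σ] at e10 e00 e11
    -- the determinant
    have hdetT : (r σ).det = x * z := by
      have h1 : (conjHom (basisUnit b) r.toHom σ).det = (r σ).det := by
        rw [conjHom_apply]; exact Matrix.det_units_conj' _ _
      rw [← h1, Matrix.det_fin_two, e10, e00, e11, mul_zero, sub_zero]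
    have hunit : IsUnit (r σ).det := by
      have h1 : (r σ).det * (r σ⁻¹).det = 1 := by
        rw [← Matrix.det_mul, r.apply_mul_inv, Matrix.det_one]
      exact isUnit_iff_exists_inv.2 ⟨_, h1⟩
    -- the cyclotomic character
    set a : ℕ := ((Fermat.Agent.Pseudo.Cyclo.cycloN p σ : (ZMod p)ˣ) : ZMod p).val with ha_def
    have ha : ∀ μ : Qb, μ ^ p ^ 1 = 1 → σ μ = μ ^ a := fun μ hμ =>
      Fermat.Agent.Pseudo.Cyclo.cycloN_spec p σ (by rwa [pow_one] at hμ)
    have hxa : x = (a : DualNumber k) * z := by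
      have := hcyc 1 a ha
      rw [hbot, Ideal.mem_bot, sub_eq_zero] at this
      exact this
    have hda : (r σ).det = (a : DualNumber k) := by
      have := hdet.2 1 σ a ha
      rw [hbot, Ideal.mem_bot, sub_eq_zero] at this
      rw [← this]
      exact (LinearMap.det_toLin' (r.toHom σ)).symm
    have hzz : z * z = 1 := by
      have h1 : (a : DualNumber k) * (z * z) = (a : DualNumber k) * 1 := by
        rw [mul_one, ← mul_assoc, ← hxa, ← hdetT, hda]
      rw [← hda] at h1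
      exact hunit.mul_left_cancel h1
    have hzs : z.snd = 0 := snd_eq_zero_of_mul_self_eq_one h2 hzz
    have hxs : x.snd = 0 := by
      rw [hxa, TrivSqZeroExt.snd_mul, hzs]
      simp
    refine ⟨e10, by rw [e00]; exact hxs, by rw [e11]; exact hzs, by rw [e11]; exact hzz,
      fun a' ha' => ?_⟩
    rw [e00, e11]
    have := hcyc 1 a' (fun μ hμ => ha' μ (by rwa [pow_one] at hμ))
    rw [hbot, Ideal.mem_bot, sub_eq_zero] at this
    exact this
  · rw [conjHom_apply]
    exact basisUnit_conj_one_one b (r σ) (hI σ hσ)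

end Fermat.Agent.TW.Ord
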