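/-
S56 / Program G, block LOC-ord (helper19), file 3: the cocycle form of a strict-ordinary tangent
cochain, with an INTRINSIC nilpotent line.

`nilSub g a = {X | (g - a) X = 0 ∧ X (g - 1) = 0}`: if `g` has eigenvalues `a ≠ 1` and `1`, with
`a`-eigenline `ℓ`, this is `Hom(V/ℓ, ℓ)`.  For `σ₀ ∈ I_P` with `ω(σ₀) = a ≠ 1` the tangent cochain of
every strict-ordinary lift is, on `D_P` and up to the coboundary of a trace-zero matrix, valued in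
`nilSub (rb σ₀) a`, which depends on the residual representation only.
-/
import Mathlib
import Fermat.Agent.TW.Ord.Rigid

set_option autoImplicit false
set_option linter.unusedSectionVars false

namespace Fermat.Agent.TW.Ord

open Matrix Fermat.Agent.TW.Sel Fermat.Agent.S53

local notation "M2" => Matrix (Fin 2) (Fin 2)
local notation "Qb" => AlgebraicClosure ℚ
local notation "GQ" => (AlgebraicClosure ℚ ≃ₐ[ℚ] AlgebraicClosure ℚ)

section Nil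

variable {k : Type*} [Field k]

/-- The nilpotent line of `g` for the eigenvalue pair `(a, 1)`. -/
def nilSub (g : M2 k) (a : k) : Submodule k (M2 k) where
  carrier := {X | (g - a • (1 : M2 k)) * X = 0 ∧ X * (g - 1) = 0}
  add_mem' := by
    rintro X Y ⟨h1, h2⟩ ⟨h3, h4⟩
    exact ⟨by rw [mul_add, h1, h3, add_zero], by rw [add_mul, h2, h4, add_zero]⟩
  zero_mem' := ⟨mul_zero _, zero_mul _⟩
  smul_mem' := by
    rintro c X ⟨h1, h2⟩
    exact ⟨by rw [mul_smul_comm, h1, smul_zero], by rw [smul_mul_assoc, h2, smul_zero]⟩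

theorem mem_nilSub {g : M2 k} {a : k} {X : M2 k} :
    X ∈ nilSub g a ↔ (g - a • (1 : M2 k)) * X = 0 ∧ X * (g - 1) = 0 := Iff.rfl

/-- Membership in `nilSub` is invariant under simultaneous conjugation. -/
theorem conj_mem_nilSub_iff (U : (M2 k)ˣ) (g : M2 k) (a : k) (X : M2 k) :
    ((U⁻¹ : (M2 k)ˣ) : M2 k) * X * (U : M2 k)
        ∈ nilSub (((U⁻¹ : (M2 k)ˣ) : M2 k) * g * (U : M2 k)) a ↔ X ∈ nilSub g a := by
  have hU : (U : M2 k) * ((U⁻¹ : (M2 k)ˣ) : M2 k) = 1 := Units.mul_inv U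
  have hU' : ((U⁻¹ : (M2 k)ˣ) : M2 k) * (U : M2 k) = 1 := Units.inv_mul U
  have hmul : ∀ Y Z : M2 k, ((U⁻¹ : (M2 k)ˣ) : M2 k) * (Y * Z) * (U : M2 k)
      = (((U⁻¹ : (M2 k)ˣ) : M2 k) * Y * (U : M2 k)) * (((U⁻¹ : (M2 k)ˣ) : M2 k) * Z * (U : M2 k)) := by
    intro Y Z
    calc ((U⁻¹ : (M2 k)ˣ) : M2 k) * (Y * Z) * (U : M2 k)
        = ((U⁻¹ : (M2 k)ˣ) : M2 k) * Y * 1 * Z * (U : M2 k) := by
          rw [mul_one]; simp only [mul_assoc]
      _ = _ := by rw [← hU]; simp only [mul_assoc]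
  have hsub : ∀ Y Z : M2 k, ((U⁻¹ : (M2 k)ˣ) : M2 k) * (Y - Z) * (U : M2 k)
      = ((U⁻¹ : (M2 k)ˣ) : M2 k) * Y * (U : M2 k) - ((U⁻¹ : (M2 k)ˣ) : M2 k) * Z * (U : M2 k) := by
    intro Y Z
    rw [mul_sub, sub_mul]
  have hsc : ((U⁻¹ : (M2 k)ˣ) : M2 k) * (a • (1 : M2 k)) * (U : M2 k) = a • (1 : M2 k) := by
    rw [mul_smul_comm, mul_one, smul_mul_assoc, hU']
  have hone : ((U⁻¹ : (M2 k)ˣ) : M2 k) * (1 : M2 k) * (U : M2 k) = 1 := by
    rw [mul_one, hU']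
  have e1 : (((U⁻¹ : (M2 k)ˣ) : M2 k) * g * (U : M2 k) - a • (1 : M2 k))
      * (((U⁻¹ : (M2 k)ˣ) : M2 k) * X * (U : M2 k))
      = ((U⁻¹ : (M2 k)ˣ) : M2 k) * ((g - a • (1 : M2 k)) * X) * (U : M2 k) := by
    rw [hmul, hsub, hsc]
  have e2 : (((U⁻¹ : (M2 k)ˣ) : M2 k) * X * (U : M2 k))
      * (((U⁻¹ : (M2 k)ˣ) : M2 k) * g * (U : M2 k) - 1)
      = ((U⁻¹ : (M2 k)ˣ) : M2 k) * (X * (g - 1)) * (U : M2 k) := by
    rw [hmul, hsub, hone]
  have hz : ∀ Y : M2 k, ((U⁻¹ : (M2 k)ˣ) : M2 k) * Y * (U : M2 k) = 0 ↔ Y = 0 := by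
    intro Y
    constructor
    · intro h
      have : (U : M2 k) * (((U⁻¹ : (M2 k)ˣ) : M2 k) * Y * (U : M2 k)) * ((U⁻¹ : (M2 k)ˣ) : M2 k)
          = Y := by
        calc (U : M2 k) * (((U⁻¹ : (M2 k)ˣ) : M2 k) * Y * (U : M2 k)) * ((U⁻¹ : (M2 k)ˣ) : M2 k)
            = ((U : M2 k) * ((U⁻¹ : (M2 k)ˣ) : M2 k)) * Y
              * ((U : M2 k) * ((U⁻¹ : (M2 k)ˣ) : M2 k)) := by simp only [mul_assoc]
          _ = Y := by rw [hU, one_mul, mul_one]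
      rw [← this, h, mul_zero, zero_mul]
    · rintro rfl
      rw [mul_zero, zero_mul]
  rw [mem_nilSub, mem_nilSub, e1, e2, hz, hz]

/-- `nilSub` of an upper triangular matrix with diagonal `(a, 1)`, `a ≠ 1`: the line `k E₁₂`. -/
theorem mem_nilSub_triangular {g : M2 k} {a : k} (ha : a ≠ 1) (h10 : g 1 0 = 0) (h00 : g 0 0 = a)
    (h11 : g 1 1 = 1) (X : M2 k) : X ∈ nilSub g a ↔ ∃ t : k, X = e12 t := by
  have h1a : (1 : k) - a ≠ 0 := sub_ne_zero.2 (Ne.symm ha)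
  have ha1 : a - 1 ≠ 0 := sub_ne_zero.2 ha
  rw [mem_nilSub]
  constructor
  · rintro ⟨h1, h2⟩
    have r10 := congrFun (congrFun h1 1) 0
    have r11 := congrFun (congrFun h1 1) 1
    have c00 := congrFun (congrFun h2 0) 0
    simp only [Matrix.mul_apply, Fin.sum_univ_two, Matrix.sub_apply, Matrix.smul_apply,
      Matrix.one_apply_eq, Matrix.one_apply_ne, Matrix.zero_apply, h10, h00, h11, smul_eq_mul,
      mul_one, mul_zero, zero_mul, zero_add, add_zero, sub_self, ne_eq,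
      one_ne_zero, not_false_eq_true, Fin.isValue] at r10 r11 c00
    have x10 : X 1 0 = 0 := by
      rcases mul_eq_zero.1 r10 with h | h
      · exact absurd h h1a
      · exact h
    have x11 : X 1 1 = 0 := by
      rcases mul_eq_zero.1 r11 with h | h
      · exact absurd h h1a
      · exact h
    have x00 : X 0 0 = 0 := by
      rcases mul_eq_zero.1 c00 with h | h
      · exact h
      · exact absurd h ha1
    refine ⟨X 0 1, ?_⟩
    ext i j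
    fin_cases i <;> fin_cases j <;> simp [e12, x00, x10, x11]
  · rintro ⟨t, rfl⟩
    constructor
    · ext i j
      fin_cases i <;> fin_cases j <;>
        simp [e12, Matrix.mul_apply, Fin.sum_univ_two, h10, h00, h11]
    · ext i j
      fin_cases i <;> fin_cases j <;>
        simp [e12, Matrix.mul_apply, Fin.sum_univ_two, h10, h00, h11]

/-- `nilSub` of a triangularisable matrix with diagonal `(a, 1)`, `a ≠ 1`. -/
theorem mem_nilSub_of_conj_triangular (B₀ : (M2 k)ˣ) {g : M2 k} {a : k} (ha : a ≠ 1)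
    (h10 : (((B₀⁻¹ : (M2 k)ˣ) : M2 k) * g * (B₀ : M2 k)) 1 0 = 0)
    (h00 : (((B₀⁻¹ : (M2 k)ˣ) : M2 k) * g * (B₀ : M2 k)) 0 0 = a)
    (h11 : (((B₀⁻¹ : (M2 k)ˣ) : M2 k) * g * (B₀ : M2 k)) 1 1 = 1) (X : M2 k) :
    X ∈ nilSub g a ↔ ∃ t : k, X = (B₀ : M2 k) * e12 t * ((B₀⁻¹ : (M2 k)ˣ) : M2 k) := by
  have hU : (B₀ : M2 k) * ((B₀⁻¹ : (M2 k)ˣ) : M2 k) = 1 := Units.mul_inv B₀
  have hU' : ((B₀⁻¹ : (M2 k)ˣ) : M2 k) * (B₀ : M2 k) = 1 := Units.inv_mul B₀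
  rw [← conj_mem_nilSub_iff B₀, mem_nilSub_triangular ha h10 h00 h11]
  constructor
  · rintro ⟨t, ht⟩
    refine ⟨t, ?_⟩
    rw [← ht]
    calc X = ((B₀ : M2 k) * ((B₀⁻¹ : (M2 k)ˣ) : M2 k)) * X
          * ((B₀ : M2 k) * ((B₀⁻¹ : (M2 k)ˣ) : M2 k)) := by rw [hU, one_mul, mul_one]
      _ = _ := by simp only [mul_assoc]
  · rintro ⟨t, rfl⟩
    refine ⟨t, ?_⟩
    calc ((B₀⁻¹ : (M2 k)ˣ) : M2 k) * ((B₀ : M2 k) * e12 t * ((B₀⁻¹ : (M2 k)ˣ) : M2 k)) * (B₀ : M2 k)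
        = (((B₀⁻¹ : (M2 k)ˣ) : M2 k) * (B₀ : M2 k)) * e12 t
          * (((B₀⁻¹ : (M2 k)ˣ) : M2 k) * (B₀ : M2 k)) := by simp only [mul_assoc]
      _ = _ := by rw [hU', one_mul, mul_one]

end Nil

section Ord

variable {k : Type} [Field k]

theorem mem_decomposition_of_mem_inertia {P : ValuationSubring Qb} {σ : GQ}
    (hσ : σ ∈ P.inertiaSubgroupIn ℚ) : σ ∈ P.decompositionSubgroup ℚ := by
  obtain ⟨x, -, rfl⟩ := Subgroup.mem_map.1 hσ
  exact x.2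

/-- Residual part of a conjugate. -/
theorem mfst_conjHom {G : Type*} [Group G] (B : (M2 (DualNumber k))ˣ) (B₀ : (M2 k)ˣ)
    (hB₀ : (B₀ : M2 k) = mfst (B : M2 (DualNumber k))) (R : G →* M2 (DualNumber k)) (σ : G) :
    mfst (conjHom B R σ) = ((B₀⁻¹ : (M2 k)ˣ) : M2 k) * redHom R σ * (B₀ : M2 k) := by
  have h1 : mfst (B : M2 (DualNumber k)) * mfst ((B⁻¹ : (M2 (DualNumber k))ˣ) : M2 (DualNumber k))
      = 1 := by rw [← mfst_mul, Units.mul_inv, mfst_one]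
  have h2 : ((B₀⁻¹ : (M2 k)ˣ) : M2 k)
      = mfst ((B⁻¹ : (M2 (DualNumber k))ˣ) : M2 (DualNumber k)) := by
    rw [← hB₀] at h1
    exact Units.inv_eq_of_mul_eq_one_right h1
  rw [conjHom_apply, mfst_mul, mfst_mul, h2, hB₀, redHom_apply]

/-- **Strict-ordinary tangent cochains, basis form.**  There are `B₀ ∈ GL₂(k)` and a trace-zero
`m` such that, on `D_P`: `B₀⁻¹ rb σ B₀ = [[ω(σ) z, *], [0, z]]` with `z² = 1`, `z = 1` on `I_P`, and
`c σ = B₀ (t E₁₂) B₀⁻¹ + m - rb σ m rb σ⁻¹`. -/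
theorem ord_tanCochain_basis_form {p : ℕ} [Fact p.Prime] (h2 : (2 : k) ≠ 0)
    (r : MatRep (DualNumber k)) (hso : r.toAdic.IsStrictOrdinaryAt p)
    (hdet : r.toAdic.DetIsCyclotomic p) (P : ValuationSubring Qb) (hP : P.LiesOverPrime p) :
    ∃ (B₀ : (M2 k)ˣ) (m : M2 k), m.trace = 0 ∧
      (∀ σ ∈ P.decompositionSubgroup ℚ,
        (((B₀⁻¹ : (M2 k)ˣ) : M2 k) * redHom r.toHom σ * (B₀ : M2 k)) 1 0 = 0 ∧
        (((B₀⁻¹ : (M2 k)ˣ) : M2 k) * redHom r.toHom σ * (B₀ : M2 k)) 1 1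
          * (((B₀⁻¹ : (M2 k)ˣ) : M2 k) * redHom r.toHom σ * (B₀ : M2 k)) 1 1 = 1 ∧
        (∀ a : ℕ, (∀ μ : Qb, μ ^ p = 1 → σ μ = μ ^ a) →
          (((B₀⁻¹ : (M2 k)ˣ) : M2 k) * redHom r.toHom σ * (B₀ : M2 k)) 0 0
            = (a : k) * (((B₀⁻¹ : (M2 k)ˣ) : M2 k) * redHom r.toHom σ * (B₀ : M2 k)) 1 1) ∧
        ∃ t : k, tanCochain r.toHom σ
          = (B₀ : M2 k) * e12 t * ((B₀⁻¹ : (M2 k)ˣ) : M2 k)
            + (m - redHom r.toHom σ * m * redHom r.toHom σ⁻¹)) ∧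
      (∀ σ ∈ P.inertiaSubgroupIn ℚ,
        (((B₀⁻¹ : (M2 k)ˣ) : M2 k) * redHom r.toHom σ * (B₀ : M2 k)) 1 1 = 1) := by
  obtain ⟨B, hD, hI⟩ := triangular_of_strictOrdinary h2 r hso hdet P hP
  obtain ⟨B₀, m, hB₀, hform⟩ := tanCochain_of_triangular r.toHom B (P.decompositionSubgroup ℚ)
    (fun σ hσ => ⟨(hD σ hσ).1, (hD σ hσ).2.1, (hD σ hσ).2.2.1⟩)
  have hentry : ∀ σ (i j : Fin 2),
      (((B₀⁻¹ : (M2 k)ˣ) : M2 k) * redHom r.toHom σ * (B₀ : M2 k)) i j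
        = ((conjHom B r.toHom σ) i j).fst := by
    intro σ i j
    rw [← mfst_conjHom B B₀ hB₀]
    rfl
  refine ⟨B₀, m - (m.trace / 2) • (1 : M2 k), ?_, fun σ hσ => ?_, fun σ hσ => ?_⟩
  · rw [Matrix.trace_sub, Matrix.trace_smul, Matrix.trace_one, Fintype.card_fin, smul_eq_mul]
    have : ((2 : ℕ) : k) = 2 := by norm_num
    rw [this, div_mul_cancel₀ _ h2, sub_self]
  · obtain ⟨e10, -, -, ezz, ecyc⟩ := hD σ hσ
    refine ⟨?_, ?_, fun a ha => ?_, ?_⟩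
    · rw [hentry, e10]; rfl
    · rw [hentry, ← TrivSqZeroExt.fst_mul, ezz]; rfl
    · rw [hentry, hentry, ecyc a ha, TrivSqZeroExt.fst_mul]
      congr 1
    · obtain ⟨t, ht⟩ := hform σ hσ
      refine ⟨t, ?_⟩
      rw [ht]
      congr 1
      have h1 : redHom r.toHom σ * redHom r.toHom σ⁻¹ = 1 := hom_mul_inv _ σ
      rw [mul_sub, sub_mul, mul_smul_comm, mul_one, smul_mul_assoc, h1]
      abel
  · rw [hentry, hI σ hσ]; rfl

/-- **Strict-ordinary tangent cochains, intrinsic form.**  For `σ₀ ∈ I_P` acting on `μ_p` by the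
`a`-th power with `a ≠ 1` in `k`: up to the coboundary of a trace-zero matrix, the tangent cochain
restricted to `D_P` takes values in `nilSub (rb σ₀) a`. -/
theorem ord_tanCochain_mem_nilSub {p : ℕ} [Fact p.Prime] (h2 : (2 : k) ≠ 0)
    (r : MatRep (DualNumber k)) (hso : r.toAdic.IsStrictOrdinaryAt p)
    (hdet : r.toAdic.DetIsCyclotomic p) (P : ValuationSubring Qb) (hP : P.LiesOverPrime p)
    (σ₀ : GQ) (hσ₀ : σ₀ ∈ P.inertiaSubgroupIn ℚ) (a : ℕ)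
    (ha : ∀ μ : Qb, μ ^ p = 1 → σ₀ μ = μ ^ a) (ha1 : (a : k) ≠ 1) :
    ∃ m : M2 k, m.trace = 0 ∧ ∀ σ ∈ P.decompositionSubgroup ℚ,
      tanCochain r.toHom σ - (m - redHom r.toHom σ * m * redHom r.toHom σ⁻¹)
        ∈ nilSub (redHom r.toHom σ₀) (a : k) := by
  obtain ⟨B₀, m, hm, hD, hI⟩ := ord_tanCochain_basis_form h2 r hso hdet P hP
  refine ⟨m, hm, fun σ hσ => ?_⟩
  obtain ⟨h10, -, hcyc, -⟩ := hD σ₀ (mem_decomposition_of_mem_inertia hσ₀)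
  have h11 := hI σ₀ hσ₀
  have h00 := hcyc a ha
  rw [h11, mul_one] at h00
  obtain ⟨-, -, -, t, ht⟩ := hD σ hσ
  rw [mem_nilSub_of_conj_triangular B₀ ha1 h10 h00 h11]
  exact ⟨t, by rw [ht]; abel⟩

end Ord

end Fermat.Agent.TW.Ord
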