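/-
S56 / Program G, block LOC-ord (helper19), file 4: the strict-ordinary cocycle form in the carrier
of `ad0Rep ρbar` (trace-zero endomorphisms of `ρbar.V`).

`nilAd ρbar σ₀ a ⊂ ad0Rep ρbar`: the endomorphisms `f` with `(ρbar σ₀ - a) f = 0 = f (ρbar σ₀ - 1)`.
For a strict-ordinary lift `r` of the standard matrix form of `ρbar`, with tangent cochain
`L.adCochain`, there is `m : ad0Rep ρbar` with `L.adCochain σ - (σ • m - m) ∈ nilAd ρbar σ₀ a` for all
`σ ∈ D_P`.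
-/
import Mathlib
import Fermat.Agent.TW.Ord.Form
import Fermat.Agent.TW.Sel.Class

set_option autoImplicit false
set_option linter.unusedSectionVars false

namespace Fermat.Agent.TW.Ord

open Matrix Fermat.Agent.TW.Sel Fermat.Agent.S53 Fermat.Agent.TW.Ad0

local notation "M2" => Matrix (Fin 2) (Fin 2)
local notation "Qb" => AlgebraicClosure ℚ
local notation "GQ" => (AlgebraicClosure ℚ ≃ₐ[ℚ] AlgebraicClosure ℚ)

section NilEnd

variable {k : Type*} [Field k] {V : Type*} [AddCommGroup V] [Module k V]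

/-- The nilpotent line of an endomorphism `g` for the eigenvalue pair `(a, 1)`. -/
def nilEnd (g : Module.End k V) (a : k) : Submodule k (Module.End k V) where
  carrier := {X | (g - a • (1 : Module.End k V)) * X = 0 ∧ X * (g - 1) = 0}
  add_mem' := by
    rintro X Y ⟨h1, h2⟩ ⟨h3, h4⟩
    exact ⟨by rw [mul_add, h1, h3, add_zero], by rw [add_mul, h2, h4, add_zero]⟩
  zero_mem' := ⟨mul_zero _, zero_mul _⟩
  smul_mem' := by
    rintro c X ⟨h1, h2⟩
    exact ⟨by rw [mul_smul_comm, h1, smul_zero], by rw [smul_mul_assoc, h2, smul_zero]⟩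

theorem mem_nilEnd {g : Module.End k V} {a : k} {X : Module.End k V} :
    X ∈ nilEnd g a ↔ (g - a • (1 : Module.End k V)) * X = 0 ∧ X * (g - 1) = 0 := Iff.rfl

/-- Transfer between matrices and endomorphisms along a basis. -/
theorem toLin_mem_nilEnd_iff (b : Module.Basis (Fin 2) k V) (g : M2 k) (a : k) (X : M2 k) :
    Matrix.toLin b b X ∈ nilEnd (Matrix.toLin b b g) a ↔ X ∈ nilSub g a := by
  have h1 : (Matrix.toLin b b g - a • (1 : Module.End k V)) * Matrix.toLin b b X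
      = Matrix.toLin b b ((g - a • (1 : M2 k)) * X) := by
    rw [Matrix.toLin_mul b b b, map_sub, map_smul, Matrix.toLin_one]
    rfl
  have h2 : Matrix.toLin b b X * (Matrix.toLin b b g - 1)
      = Matrix.toLin b b (X * (g - 1)) := by
    rw [Matrix.toLin_mul b b b, map_sub, Matrix.toLin_one]
    rfl
  rw [mem_nilEnd, mem_nilSub, h1, h2, LinearEquiv.map_eq_zero_iff, LinearEquiv.map_eq_zero_iff]

end NilEnd

variable {k : Type} [Field k] (ρbar : ResidualGaloisRep k)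

/-- The underlying endomorphism of an element of `ad0Rep ρbar`. -/
noncomputable def ad0ToEnd : (ad0Rep ρbar) →ₗ[k] Module.End k ρbar.V := (sl ρbar).subtype

theorem ad0ToEnd_toAd0 (x : sl ρbar) : ad0ToEnd ρbar (toAd0 ρbar x) = (x : Module.End k ρbar.V) :=
  rfl

theorem ad0ToEnd_injective : Function.Injective (ad0ToEnd ρbar) := Subtype.val_injective

theorem ad0ToEnd_ρ (σ : GQ) (m : (ad0Rep ρbar)) :
    ad0ToEnd ρbar ((ad0Rep ρbar).ρ σ m) = ρbar.ρ σ * ad0ToEnd ρbar m * ρbar.ρ σ⁻¹ :=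
  coe_ad0Repn_apply ρbar σ m

/-- The nilpotent line inside `ad0Rep ρbar`. -/
noncomputable def nilAd (σ₀ : GQ) (a : k) : Submodule k (ad0Rep ρbar) :=
  (nilEnd (ρbar.ρ σ₀) a).comap (ad0ToEnd ρbar)

theorem mem_nilAd {σ₀ : GQ} {a : k} {f : (ad0Rep ρbar)} :
    f ∈ nilAd ρbar σ₀ a ↔ (ρbar.ρ σ₀ - a • (1 : Module.End k ρbar.V)) * ad0ToEnd ρbar f = 0 ∧
      ad0ToEnd ρbar f * (ρbar.ρ σ₀ - 1) = 0 := Iff.rfl

variable {ρbar}

/-- **Strict-ordinary tangent cocycles in `ad0Rep ρbar`.** -/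
theorem adCochain_sub_mem_nilAd {p : ℕ} [Fact p.Prime] (h2 : (2 : k) ≠ 0)
    (L : TanLift (stdMat ρbar).toHom) (r : MatRep (DualNumber k)) (hL : L.R = r.toHom)
    (hso : r.toAdic.IsStrictOrdinaryAt p) (hdet : r.toAdic.DetIsCyclotomic p)
    (P : ValuationSubring Qb) (hP : P.LiesOverPrime p)
    (σ₀ : GQ) (hσ₀ : σ₀ ∈ P.inertiaSubgroupIn ℚ) (a : ℕ)
    (ha : ∀ μ : Qb, μ ^ p = 1 → σ₀ μ = μ ^ a) (ha1 : (a : k) ≠ 1) :
    ∃ m : (ad0Rep ρbar), ∀ σ ∈ P.decompositionSubgroup ℚ,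
      L.adCochain σ - ((ad0Rep ρbar).ρ σ m - m) ∈ nilAd ρbar σ₀ (a : k) := by
  obtain ⟨m₀, hm₀, hform⟩ := ord_tanCochain_mem_nilSub h2 r hso hdet P hP σ₀ hσ₀ a ha ha1
  have hred : ∀ σ, redHom r.toHom σ = stdMat ρbar σ := by
    intro σ
    rw [← hL, L.red]
  set b := stdBasis ρbar with hb
  have hmem : Matrix.toLin b b (-m₀) ∈ sl ρbar := by
    rw [mem_sl_iff, trace_toLin, Matrix.trace_neg, hm₀, neg_zero]
  refine ⟨toAd0 ρbar ⟨Matrix.toLin b b (-m₀), hmem⟩, fun σ hσ => ?_⟩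
  have h1 := hform σ hσ
  rw [hred, hred, hred] at h1
  rw [← toLin_mem_nilEnd_iff b, toLin_stdMat] at h1
  show ad0ToEnd ρbar _ ∈ nilEnd (ρbar.ρ σ₀) (a : k)
  have h3 : ad0ToEnd ρbar (L.adCochain σ - ((ad0Rep ρbar).ρ σ
        (toAd0 ρbar ⟨Matrix.toLin b b (-m₀), hmem⟩) - toAd0 ρbar ⟨Matrix.toLin b b (-m₀), hmem⟩))
      = Matrix.toLin b b (tanCochain r.toHom σ
        - (m₀ - stdMat ρbar σ * m₀ * stdMat ρbar σ⁻¹)) := by
    rw [map_sub, map_sub, ad0ToEnd_ρ, ad0ToEnd_toAd0]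
    show Matrix.toLin b b (tanCochain L.R σ)
      - (ρbar.ρ σ * Matrix.toLin b b (-m₀) * ρbar.ρ σ⁻¹ - Matrix.toLin b b (-m₀)) = _
    rw [hL, map_sub, map_sub, toLin_conj, map_neg]
    simp only [mul_neg, neg_mul, sub_neg_eq_add]
    abel
  rw [h3]
  exact h1

end Fermat.Agent.TW.Ord
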