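/-
S56 / Program G, block LOC-ord (helper19), file 5: the strict-ordinary local condition at `p` in
level cohomology, and the restriction of the tangent classes.

`p` a prime, `Gp = Gal(ℚ̄_p/ℚ_p)`, `r = localGaloisToGlobal p`, `P = padicPlace p`,
`A = Rep.res r (ad⁰ ρbar)`, LC cohomology for `levelOf r` (same conventions as helper23's
`TW/Loc/LocS.lean`).

* `ordZ₁ ρbar p σ₀ a` : the LC `1`-cocycles of `A` with values in the nilpotent line
  `nilAd ρbar σ₀ a`;
* `ordH1 ρbar p σ₀ a` : their classes, a subspace of `LC.H1 (levelOf r) A`;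
* `lcResH1_mem_ordH1` : the restriction to `Gp` of every tangent class of a deformation condition
  implying `DetIsCyclotomic p ∧ IsStrictOrdinaryAt p` lies in `ordH1`, for every `σ₀ ∈ I_P` acting
  on `μ_p` by `a ≠ 1`.
-/
import Mathlib
import Fermat.Agent.TW.Ord.AdForm
import Fermat.Agent.TW.Sel.Sel
import Fermat.Agent.TW.Sel.EquivInv
import Fermat.Agent.S55.LCBridgeCompat
import Fermat.Agent.S55.LocalImage

set_option autoImplicit false
set_option linter.unusedSectionVars false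
set_option linter.style.haveILetI false

namespace Fermat.Agent.TW.Ord

open IsLocalRing groupCohomology
open Fermat.Agent.TW.Sel Fermat.Agent.S53 Fermat.Agent.TW.Ad0 Fermat.Agent.CFT Fermat.Agent.S55
open Fermat.Agent.TW.Contracts

local notation "Qb" => AlgebraicClosure ℚ
local notation "GQ" => (AlgebraicClosure ℚ ≃ₐ[ℚ] AlgebraicClosure ℚ)

section Local

variable {k : Type} [Field k] (ρbar : ResidualGaloisRep k) (p : ℕ) [hp : Fact p.Prime]

local notation "Gp" => (PadicAlgCl p ≃ₐ[ℚ_[p]] PadicAlgCl p)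

/-- `ad⁰ ρbar` restricted to `Gal(ℚ̄_p/ℚ_p)` is smooth for `levelOf`. -/
theorem isSmooth_res_ad0 {H : Type} [Group H] (r : H →* GQ) :
    IsSmooth (levelOf r) (Rep.res r (ad0Rep ρbar)) := by
  refine isSmooth_levelOf_res r (ad0Rep ρbar) (fun m => ?_)
  obtain ⟨L₀, hfd, h⟩ := ρbar.factorsThroughFiniteLevel
  refine ⟨L₀, hfd, fun s hs => ?_⟩
  have h1 : ρbar.ρ s = 1 :=
    h s (fun x hx => (IntermediateField.mem_fixingSubgroup_iff _ _).mp hs x hx)
  have h2 : ρbar.ρ s⁻¹ = 1 := by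
    have := rho_inv_mul_rho ρbar s
    rwa [h1, mul_one] at this
  apply ad0ToEnd_injective
  rw [ad0ToEnd_ρ, h1, h2, one_mul, mul_one]

/-- The nilpotent line as a submodule of the restricted representation. -/
noncomputable def nilAdRes {H : Type} [Group H] (r : H →* GQ) (σ₀ : GQ) (a : k) :
    Submodule k (Rep.res r (ad0Rep ρbar)) := nilAd ρbar σ₀ a

/-- The LC `1`-cocycles of strict-ordinary type: valued in the nilpotent line. -/
noncomputable def ordZ₁ (σ₀ : GQ) (a : k) :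
    Submodule k ↥(LC.Z₁ (levelOf (localGaloisToGlobal p))
      (Rep.res (localGaloisToGlobal p) (ad0Rep ρbar))) where
  carrier := {z | ∀ g : Gp, z.1 g ∈ nilAdRes ρbar (localGaloisToGlobal p) σ₀ a}
  add_mem' := by
    intro x y hx hy g
    exact Submodule.add_mem _ (hx g) (hy g)
  zero_mem' := fun g => Submodule.zero_mem _
  smul_mem' := by
    intro c x hx g
    exact Submodule.smul_mem _ c (hx g)

theorem mem_ordZ₁_iff {σ₀ : GQ} {a : k}
    (z : ↥(LC.Z₁ (levelOf (localGaloisToGlobal p))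
      (Rep.res (localGaloisToGlobal p) (ad0Rep ρbar)))) :
    z ∈ ordZ₁ ρbar p σ₀ a ↔ ∀ g : Gp, z.1 g ∈ nilAdRes ρbar (localGaloisToGlobal p) σ₀ a :=
  Iff.rfl

/-- The strict-ordinary local condition: classes with a representative valued in the nilpotent
line. -/
noncomputable def ordH1 (σ₀ : GQ) (a : k) :
    Submodule k (LC.H1 (levelOf (localGaloisToGlobal p))
      (Rep.res (localGaloisToGlobal p) (ad0Rep ρbar))) :=
  (ordZ₁ ρbar p σ₀ a).map
    (LC.H1π (levelOf (localGaloisToGlobal p)) (Rep.res (localGaloisToGlobal p) (ad0Rep ρbar)))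

end Local

section Tangent

variable {𝒪 : Type} [CommRing 𝒪] [IsLocalRing 𝒪]

local notation "kk" => ResidueField 𝒪

/-- **The restriction to `G_p` of a strict-ordinary tangent class lies in `ordH1`.** -/
theorem lcResH1_mem_ordH1 {p : ℕ} [Fact p.Prime] (h2 : (2 : kk) ≠ 0)
    (ρbar : ResidualGaloisRep kk) (𝒟 : Cond 𝒪) (T : Finset Nat.Primes)
    (h𝒟 : letI : Algebra 𝒪 (DualNumber kk) := dualNumberAlgebra 𝒪
      ∀ ρ : GaloisRepAdic (DualNumber kk), 𝒟 ρ → ρ.DetIsCyclotomic p ∧ ρ.IsStrictOrdinaryAt p)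
    (σ₀ : GQ) (hσ₀ : σ₀ ∈ (padicPlace p).inertiaSubgroupIn ℚ) (a : ℕ)
    (ha : ∀ μ : Qb, μ ^ p = 1 → σ₀ μ = μ ^ a) (ha1 : (a : kk) ≠ 1)
    (x : LC.H1 (globalLevel T) (ad0Rep ρbar)) (hx : x ∈ tanClasses ρbar 𝒟 T) :
    lcResH1 (ad0Rep ρbar) (levelCompat_globalLevel (localGaloisToGlobal p) T) x
      ∈ ordH1 ρbar p σ₀ (a : kk) := by
  letI : Algebra 𝒪 (DualNumber kk) := dualNumberAlgebra 𝒪
  obtain ⟨ρ, hρ, r, hr, L, hL, hZ, rfl⟩ := hx
  obtain ⟨hdet, hso⟩ := h𝒟 ρ hρ
  have hr' : ρ.IsEquiv r.toAdic := ⟨(Classical.choice hr).symm⟩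
  have hdet' : r.toAdic.DetIsCyclotomic p := detIsCyclotomic_of_isEquiv hr' hdet
  have hso' : r.toAdic.IsStrictOrdinaryAt p := isStrictOrdinaryAt_of_isEquiv hr' hso
  obtain ⟨m, hm⟩ := adCochain_sub_mem_nilAd h2 L r hL hso' hdet' (padicPlace p)
    (padicPlace_liesOverPrime p) σ₀ hσ₀ a ha ha1
  set ι := localGaloisToGlobal p with hι
  set A := Rep.res ι (ad0Rep ρbar) with hA
  have hsm : IsSmooth (levelOf ι) A := isSmooth_res_ad0 ρbar ι
  -- the coboundary of `m` as an LC cocycle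
  have hdm : (d₀₁ A).hom (show A from m) ∈ LC.Z₁ (levelOf ι) A :=
    LC.B₁_le_Z₁ hsm ⟨(show A from m), rfl⟩
  set c := lcResZ₁ (ad0Rep ρbar) (levelCompat_globalLevel ι T) ⟨L.adCochain, hZ⟩ with hc
  refine ⟨c - ⟨_, hdm⟩, ?_, ?_⟩
  · intro g
    have := hm (ι g) (localGaloisToGlobal_mem_decompositionSubgroup p g)
    exact this
  · rw [lcResH1_mk, map_sub, sub_eq_self, LC.H1π_eq_zero_iff]
    exact ⟨(show A from m), rfl⟩

end Tangent

end Fermat.Agent.TW.Ord
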