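/-
S56 / Program G, block LOC-ord (helper19), file 8: the count `dim ordH1 ≤ h⁰_p + 1` from the
Kummer bound `dim H¹_LC(G_p, k(ω)) ≤ 2`.

From ONE strict-ordinary lift of the standard matrix form of `ρbar` we get the shape of `ρbar` on
`D_P` (`P = padicPlace p`): in a basis `B₀`, `ρbar σ = [[ω(σ) z, *], [0, z]]`, `z² = 1`.  Then
`nilAd ρbar σ₀ a = k E` with `E = B₀ E₁₂ B₀⁻¹`, `σ E = ω(σ) E`, and `H' = B₀ diag(1,-1) B₀⁻¹` has
`σ H' - H' ∈ k E`; the abstract count of `Count.lean` applies.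
-/
import Mathlib
import Fermat.Agent.TW.Ord.Subspace
import Fermat.Agent.TW.Ord.Count
import Fermat.Agent.TW.Ord.ConjLemmas

set_option autoImplicit false
set_option linter.unusedSectionVars false
set_option linter.style.haveILetI false

namespace Fermat.Agent.TW.Ord

open Matrix Module groupCohomology
open Fermat.Agent.TW.Sel Fermat.Agent.S53 Fermat.Agent.TW.Ad0 Fermat.Agent.CFT Fermat.Agent.S55

local notation "M2" => Matrix (Fin 2) (Fin 2)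
local notation "Qb" => AlgebraicClosure ℚ
local notation "GQ" => (AlgebraicClosure ℚ ≃ₐ[ℚ] AlgebraicClosure ℚ)

variable {k : Type} [Field k] (ρbar : ResidualGaloisRep k) (p : ℕ) [hp : Fact p.Prime]

local notation "Gp" => (PadicAlgCl p ≃ₐ[ℚ_[p]] PadicAlgCl p)

/-- The mod `p` cyclotomic character of `G_ℚ`, as a natural number `< p`. -/
noncomputable def cycNat (σ : GQ) : ℕ :=
  haveI : NeZero p := ⟨(Fact.out : p.Prime).ne_zero⟩
  ((Fermat.Agent.Pseudo.Cyclo.cycloN p σ : (ZMod p)ˣ) : ZMod p).val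

theorem cycNat_spec (σ : GQ) (μ : Qb) (hμ : μ ^ p = 1) : σ μ = μ ^ cycNat p σ :=
  haveI : NeZero p := ⟨(Fact.out : p.Prime).ne_zero⟩
  Fermat.Agent.Pseudo.Cyclo.cycloN_spec p σ hμ

/-- The shape of `ρbar` on the decomposition group at `p` in the basis `B₀`. -/
def ResShape (B₀ : (M2 k)ˣ) : Prop :=
  (∀ σ ∈ (padicPlace p).decompositionSubgroup ℚ,
    (((B₀⁻¹ : (M2 k)ˣ) : M2 k) * stdMat ρbar σ * (B₀ : M2 k)) 1 0 = 0 ∧
    (((B₀⁻¹ : (M2 k)ˣ) : M2 k) * stdMat ρbar σ * (B₀ : M2 k)) 1 1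
      * (((B₀⁻¹ : (M2 k)ˣ) : M2 k) * stdMat ρbar σ * (B₀ : M2 k)) 1 1 = 1 ∧
    ∀ a : ℕ, (∀ μ : Qb, μ ^ p = 1 → σ μ = μ ^ a) →
      (((B₀⁻¹ : (M2 k)ˣ) : M2 k) * stdMat ρbar σ * (B₀ : M2 k)) 0 0
        = (a : k) * (((B₀⁻¹ : (M2 k)ˣ) : M2 k) * stdMat ρbar σ * (B₀ : M2 k)) 1 1) ∧
  ∀ σ ∈ (padicPlace p).inertiaSubgroupIn ℚ,
    (((B₀⁻¹ : (M2 k)ˣ) : M2 k) * stdMat ρbar σ * (B₀ : M2 k)) 1 1 = 1

variable {ρbar p}

/-- One strict-ordinary lift gives the shape. -/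
theorem exists_resShape_of_lift (h2 : (2 : k) ≠ 0) (r : MatRep (DualNumber k))
    (hred : ∀ σ, redHom r.toHom σ = stdMat ρbar σ)
    (hso : r.toAdic.IsStrictOrdinaryAt p) (hdet : r.toAdic.DetIsCyclotomic p) :
    ∃ B₀ : (M2 k)ˣ, ResShape ρbar p B₀ := by
  obtain ⟨B₀, m, -, hD, hI⟩ := ord_tanCochain_basis_form h2 r hso hdet (padicPlace p)
    (padicPlace_liesOverPrime p)
  refine ⟨B₀, fun σ hσ => ?_, fun σ hσ => ?_⟩
  · obtain ⟨h10, h11, hcyc, -⟩ := hD σ hσ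
    rw [hred] at h10 h11 hcyc
    exact ⟨h10, h11, hcyc⟩
  · have := hI σ hσ
    rwa [hred] at this

section Elements

variable (ρbar)

/-- The element of `ad0Rep ρbar` of a trace-zero matrix. -/
noncomputable def matAd (X : M2 k) (hX : X.trace = 0) : (ad0Rep ρbar) :=
  toAd0 ρbar ⟨Matrix.toLin (stdBasis ρbar) (stdBasis ρbar) X, by
    rw [mem_sl_iff, trace_toLin]; exact hX⟩

theorem ad0ToEnd_matAd (X : M2 k) (hX : X.trace = 0) :
    ad0ToEnd ρbar (matAd ρbar X hX) = Matrix.toLin (stdBasis ρbar) (stdBasis ρbar) X := rfl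

theorem ad0_ext {f f' : (ad0Rep ρbar)} (h : ad0ToEnd ρbar f = ad0ToEnd ρbar f') : f = f' :=
  ad0ToEnd_injective ρbar h

/-- The action on `matAd`. -/
theorem ad0ToEnd_ρ_matAd (σ : GQ) (X : M2 k) (hX : X.trace = 0) :
    ad0ToEnd ρbar ((ad0Rep ρbar).ρ σ (matAd ρbar X hX))
      = Matrix.toLin (stdBasis ρbar) (stdBasis ρbar) (stdMat ρbar σ * X * stdMat ρbar σ⁻¹) := by
  rw [ad0ToEnd_ρ, ad0ToEnd_matAd, toLin_conj]

variable (B₀ : (M2 k)ˣ)

/-- `E = B₀ E₁₂ B₀⁻¹`. -/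
noncomputable def ordE : (ad0Rep ρbar) :=
  matAd ρbar (cj B₀ (e12 1)) (by rw [trace_cj, trace_e12])

/-- `H' = B₀ diag(1,-1) B₀⁻¹`. -/
noncomputable def ordH : (ad0Rep ρbar) :=
  matAd ρbar (cj B₀ dg) (by rw [trace_cj, trace_dg])

theorem ordE_ne_zero : ordE ρbar B₀ ≠ 0 := by
  intro h
  have h1 := congrArg (ad0ToEnd ρbar) h
  rw [map_zero, ordE, ad0ToEnd_matAd, LinearEquiv.map_eq_zero_iff] at h1
  have h2 : cj B₀ (e12 (1 : k)) = cj B₀ 0 := by rw [h1, cj, mul_zero, zero_mul]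
  exact e12_ne_zero one_ne_zero (cj_injective B₀ h2)

theorem ordH_ne_smul (t : k) : ordH ρbar B₀ ≠ t • ordE ρbar B₀ := by
  intro h
  have h1 := congrArg (ad0ToEnd ρbar) h
  rw [map_smul, ordE, ordH, ad0ToEnd_matAd, ad0ToEnd_matAd, ← map_smul] at h1
  have h2 := (Matrix.toLin (stdBasis ρbar) (stdBasis ρbar)).injective h1
  rw [← cj_smul, e12_smul, mul_one] at h2
  exact dg_ne_e12 t (cj_injective B₀ h2)

variable {ρbar B₀}

/-- The nilpotent line is `k E`. -/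
theorem nilAd_eq_span (hS : ResShape ρbar p B₀) {σ₀ : GQ}
    (hσ₀ : σ₀ ∈ (padicPlace p).inertiaSubgroupIn ℚ) {a : ℕ}
    (ha : ∀ μ : Qb, μ ^ p = 1 → σ₀ μ = μ ^ a) (ha1 : (a : k) ≠ 1) :
    nilAd ρbar σ₀ (a : k) = Submodule.span k {ordE ρbar B₀} := by
  obtain ⟨h10, -, hcyc⟩ := hS.1 σ₀ (mem_decomposition_of_mem_inertia hσ₀)
  have h11 := hS.2 σ₀ hσ₀
  have h00 := hcyc a ha
  rw [h11, mul_one] at h00
  have hiff := mem_nilSub_of_conj_triangular B₀ ha1 h10 h00 h11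
  ext f
  rw [Submodule.mem_span_singleton]
  set b := stdBasis ρbar with hb
  set X : M2 k := LinearMap.toMatrix b b (ad0ToEnd ρbar f) with hX
  have hfX : ad0ToEnd ρbar f = Matrix.toLin b b X := by rw [hX, Matrix.toLin_toMatrix]
  have h1 : f ∈ nilAd ρbar σ₀ (a : k) ↔ X ∈ nilSub (stdMat ρbar σ₀) (a : k) := by
    rw [← toLin_mem_nilEnd_iff b, toLin_stdMat, ← hfX]
    rfl
  rw [h1, hiff]
  constructor
  · rintro ⟨t, ht⟩
    refine ⟨t, ad0_ext ρbar ?_⟩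
    rw [map_smul, ordE, ad0ToEnd_matAd, hfX, ht, ← map_smul, ← cj_smul, e12_smul, mul_one]
    rfl
  · rintro ⟨t, rfl⟩
    refine ⟨t, ?_⟩
    have h2 : Matrix.toLin b b X = Matrix.toLin b b (cj B₀ (e12 t)) := by
      rw [← hfX, map_smul, ordE, ad0ToEnd_matAd, ← map_smul, ← cj_smul, e12_smul, mul_one]
    exact (Matrix.toLin b b).injective h2

/-- `σ E = ω(σ) E` on the decomposition group. -/
theorem ρ_ordE (hS : ResShape ρbar p B₀) {σ : GQ}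
    (hσ : σ ∈ (padicPlace p).decompositionSubgroup ℚ) :
    (ad0Rep ρbar).ρ σ (ordE ρbar B₀) = (cycNat p σ : k) • ordE ρbar B₀ := by
  obtain ⟨h10, -, hcyc⟩ := hS.1 σ hσ
  have h00 := hcyc (cycNat p σ) (cycNat_spec p σ)
  apply ad0_ext
  have hMM' : stdMat ρbar σ * stdMat ρbar σ⁻¹ = 1 := (stdMat ρbar).apply_mul_inv σ
  rw [ordE, ad0ToEnd_ρ_matAd, map_smul, ad0ToEnd_matAd, ← map_smul,
    conj_cj_e12 B₀ hMM' _ 1 h10 h00, ← e12_smul, cj_smul]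

/-- `σ H' - H' ∈ k E` on the decomposition group. -/
theorem ρ_ordH (hS : ResShape ρbar p B₀) {σ : GQ}
    (hσ : σ ∈ (padicPlace p).decompositionSubgroup ℚ) :
    (ad0Rep ρbar).ρ σ (ordH ρbar B₀) - ordH ρbar B₀
      = (-2 * (((B₀⁻¹ : (M2 k)ˣ) : M2 k) * stdMat ρbar σ * (B₀ : M2 k)) 0 1
          * (((B₀⁻¹ : (M2 k)ˣ) : M2 k) * stdMat ρbar σ * (B₀ : M2 k)) 1 1) • ordE ρbar B₀ := by
  obtain ⟨h10, h11, -⟩ := hS.1 σ hσ
  apply ad0_ext
  have hMM' : stdMat ρbar σ * stdMat ρbar σ⁻¹ = 1 := (stdMat ρbar).apply_mul_inv σ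
  rw [map_sub, ordH, ad0ToEnd_ρ_matAd, map_smul, ordE, ad0ToEnd_matAd, ad0ToEnd_matAd, ← map_sub,
    ← map_smul, conj_cj_dg B₀ hMM' h10 h11, ← cj_smul, e12_smul, mul_one]

end Elements

section Final

variable (k p)

/-- The mod `p` cyclotomic character on `Gal(ℚ̄_p/ℚ_p)` with values in `k`. -/
noncomputable def chiLoc (g : Gp) : k := (cycNat p (localGaloisToGlobal p g) : k)

variable {k p} {B₀ : (M2 k)ˣ}

instance instFiniteResAd0 {H : Type} [Group H] (r : H →* GQ) :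
    Module.Finite k (Rep.res r (ad0Rep ρbar)) :=
  inferInstanceAs (Module.Finite k (sl ρbar))

/-- **(LOC-ord) from the Kummer bound**: `dim ordH1 ≤ h⁰(G_p, ad⁰ ρbar) + 1`. -/
theorem finrank_ordH1_le (hS : ResShape ρbar p B₀) {σ₀ : GQ}
    (hσ₀ : σ₀ ∈ (padicPlace p).inertiaSubgroupIn ℚ) {a : ℕ}
    (ha : ∀ μ : Qb, μ ^ p = 1 → σ₀ μ = μ ^ a) (ha1 : (a : k) ≠ 1)
    (hfin : Module.Finite k (twH1 (levelOf (localGaloisToGlobal p)) (chiLoc k p)))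
    (hK : finrank k (twH1 (levelOf (localGaloisToGlobal p)) (chiLoc k p)) ≤ 2) :
    Module.Finite k (ordH1 ρbar p σ₀ (a : k)) ∧
      finrank k (ordH1 ρbar p σ₀ (a : k))
        ≤ finrank k (Rep.res (localGaloisToGlobal p) (ad0Rep ρbar)).ρ.invariants + 1 := by
  set ι := localGaloisToGlobal p with hι
  set A := Rep.res ι (ad0Rep ρbar) with hA
  have hZ : ordZ₁ ρbar p σ₀ (a : k)
      = valuedZ₁ (levelOf ι) A (Submodule.span k {(show A from ordE ρbar B₀)}) := by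
    ext z
    rw [mem_ordZ₁_iff, mem_valuedZ₁]
    have : nilAdRes ρbar ι σ₀ (a : k) = Submodule.span k {(show A from ordE ρbar B₀)} :=
      nilAd_eq_span hS hσ₀ ha ha1
    rw [this]
  have hmain := finrank_valued_le (Lv := levelOf ι) (A := A) (χ := chiLoc k p)
    (s := fun g => -2 * (((B₀⁻¹ : (M2 k)ˣ) : M2 k) * stdMat ρbar (ι g) * (B₀ : M2 k)) 0 1
          * (((B₀⁻¹ : (M2 k)ˣ) : M2 k) * stdMat ρbar (ι g) * (B₀ : M2 k)) 1 1)
    (E := (show A from ordE ρbar B₀)) (H' := (show A from ordH ρbar B₀))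
    (isSmooth_res_ad0 ρbar ι)
    (fun g => ρ_ordE hS (localGaloisToGlobal_mem_decompositionSubgroup p g))
    (fun g => ρ_ordH hS (localGaloisToGlobal_mem_decompositionSubgroup p g))
    (ordE_ne_zero ρbar B₀) (ordH_ne_smul ρbar B₀) hfin hK
  rw [ordH1, hZ]
  exact hmain

end Final

end Fermat.Agent.TW.Ord
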