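/-
S56 / Program G, block LOC-ord (helper19), file 9: the output of the block, modulo the Kummer bound.

`locOrdOut`: for a deformation condition `𝒟` implying `DetIsCyclotomic p ∧ IsStrictOrdinaryAt p`
(`p` odd) there is a subspace `L_p` of `LC.H1 (levelOf r_p) (Rep.res r_p (ad⁰ ρbar))`,
`r_p = localGaloisToGlobal p`, containing the restrictions of all tangent classes, with
`dim L_p ≤ h⁰(G_p, ad⁰ ρbar) + 1` — provided `dim H¹_LC(G_p, k(ω)) ≤ 2` (`twH1`, raw form).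
-/
import Mathlib
import Fermat.Agent.TW.Ord.Inst
import Fermat.Agent.BR3.WildCyclo

set_option autoImplicit false
set_option linter.unusedSectionVars false
set_option linter.style.haveILetI false

namespace Fermat.Agent.TW.Ord

open IsLocalRing Module groupCohomology
open Fermat.Agent.TW.Sel Fermat.Agent.S53 Fermat.Agent.TW.Ad0 Fermat.Agent.CFT Fermat.Agent.S55
open Fermat.Agent.TW.Contracts

local notation "Qb" => AlgebraicClosure ℚ
local notation "GQ" => (AlgebraicClosure ℚ ≃ₐ[ℚ] AlgebraicClosure ℚ)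

/-- For odd `p` there is an inertia element at `padicPlace p` squaring the `p`-th roots of unity. -/
theorem exists_inertia_sq {p : ℕ} [Fact p.Prime] (hp2 : p ≠ 2) :
    ∃ σ₀ ∈ (padicPlace p).inertiaSubgroupIn ℚ, ∀ μ : Qb, μ ^ p = 1 → σ₀ μ = μ ^ 2 := by
  have hp : p.Prime := Fact.out
  haveI : NeZero (p : Qb) := ⟨Nat.cast_ne_zero.2 hp.ne_zero⟩
  obtain ⟨ζ, hζ⟩ := HasEnoughRootsOfUnity.exists_primitiveRoot Qb p
  have h2 : ¬ p ∣ 2 := fun h => hp2 ((Nat.prime_dvd_prime_iff_eq hp Nat.prime_two).1 h)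
  obtain ⟨σ₀, hσ₀, hζσ, -⟩ := Fermat.Agent.BR3.WildCyclo.exists_inertia_apply_eq_pow hp hζ
    (padicPlace p) (padicPlace_liesOverPrime p) h2
  refine ⟨σ₀, hσ₀, fun μ hμ => ?_⟩
  obtain ⟨i, -, rfl⟩ := hζ.eq_pow_of_pow_eq_one hμ
  rw [map_pow, hζσ, ← pow_mul, ← pow_mul, mul_comm]

variable {𝒪 : Type} [CommRing 𝒪] [IsLocalRing 𝒪]

local notation "kk" => ResidueField 𝒪

/-- **Output of LOC-ord (modulo the Kummer bound).** -/
theorem locOrdOut {p : ℕ} [Fact p.Prime] (hp2 : p ≠ 2) (h2 : (2 : kk) ≠ 0)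
    (ρbar : ResidualGaloisRep kk) (𝒟 : Cond 𝒪) (T : Finset Nat.Primes)
    (h𝒟 : letI : Algebra 𝒪 (DualNumber kk) := dualNumberAlgebra 𝒪
      ∀ ρ : GaloisRepAdic (DualNumber kk), 𝒟 ρ → ρ.DetIsCyclotomic p ∧ ρ.IsStrictOrdinaryAt p)
    (hfin : Module.Finite kk (twH1 (levelOf (localGaloisToGlobal p)) (chiLoc kk p)))
    (hK : finrank kk (twH1 (levelOf (localGaloisToGlobal p)) (chiLoc kk p)) ≤ 2) :
    ∃ Lp : Submodule kk (LC.H1 (levelOf (localGaloisToGlobal p))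
        (Rep.res (localGaloisToGlobal p) (ad0Rep ρbar))),
      (∀ x ∈ tanClasses ρbar 𝒟 T,
        lcResH1 (ad0Rep ρbar) (levelCompat_globalLevel (localGaloisToGlobal p) T) x ∈ Lp) ∧
      Module.Finite kk Lp ∧
      finrank kk Lp
        ≤ finrank kk (Rep.res (localGaloisToGlobal p) (ad0Rep ρbar)).ρ.invariants + 1 := by
  letI : Algebra 𝒪 (DualNumber kk) := dualNumberAlgebra 𝒪
  by_cases hne : (tanClasses ρbar 𝒟 T).Nonempty
  · obtain ⟨x₀, ρ, hρ, r, hr, L, hL, hZ, -⟩ := hne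
    obtain ⟨hdet, hso⟩ := h𝒟 ρ hρ
    have hr' : ρ.IsEquiv r.toAdic := ⟨(Classical.choice hr).symm⟩
    have hdet' : r.toAdic.DetIsCyclotomic p := detIsCyclotomic_of_isEquiv hr' hdet
    have hso' : r.toAdic.IsStrictOrdinaryAt p := isStrictOrdinaryAt_of_isEquiv hr' hso
    have hred : ∀ σ, redHom r.toHom σ = stdMat ρbar σ := by
      intro σ
      rw [← hL, L.red]
    obtain ⟨B₀, hS⟩ := exists_resShape_of_lift h2 r hred hso' hdet'
    obtain ⟨σ₀, hσ₀, ha⟩ := exists_inertia_sq hp2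
    have ha1 : ((2 : ℕ) : kk) ≠ 1 := by
      intro h
      have h' : (2 : kk) = 1 := by exact_mod_cast h
      exact one_ne_zero (α := kk) (by linear_combination h')
    obtain ⟨hf, hle⟩ := finrank_ordH1_le (ρbar := ρbar) hS hσ₀ ha ha1 hfin hK
    exact ⟨ordH1 ρbar p σ₀ ((2 : ℕ) : kk),
      fun x hx => lcResH1_mem_ordH1 h2 ρbar 𝒟 T h𝒟 σ₀ hσ₀ 2 ha ha1 x hx, hf, hle⟩
  · refine ⟨⊥, fun x hx => absurd ⟨x, hx⟩ hne, inferInstance, ?_⟩
    rw [finrank_bot]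
    exact Nat.zero_le _

end Fermat.Agent.TW.Ord
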