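/-
S56 / Program G, block LOC-ord (helper19), file 12: the Kummer bound over `ℚ_p`.

`p` odd, `Gp = Gal(ℚ̄_p/ℚ_p)`, `Lv = levelOf (localGaloisToGlobal p)`, `k` a finite field with
`p = 0`.  Then `H¹_LC(Gp, k(ω))` (raw form `twH1 Lv (chiLoc k p)`) has dimension `≤ 2`:
Hilbert 90 in level cohomology (main, `CFT/PT/JSInst`), the Kummer injection of `KummerA`, the index
`(ℚ_pˣ : ℚ_pˣᵖ) = p · #μ_p(ℚ_p) · #(ℤ_p/p) = p²` (main, `CFT/Local/PowIndex`), and `KummerB`.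
-/
import Mathlib
import Fermat.Agent.TW.Ord.KummerA
import Fermat.Agent.TW.Ord.KummerB
import Fermat.Agent.TW.Ord.Out
import Fermat.Agent.CFT.PT.JSInst
import Fermat.Agent.CFT.Local.PowIndexCor

set_option autoImplicit false
set_option linter.unusedSectionVars false
set_option linter.style.haveILetI false

namespace Fermat.Agent.TW.Ord

open IsLocalRing Module groupCohomology
open Fermat.Agent.CFT Fermat.Agent.S55

local notation "Qb" => AlgebraicClosure ℚ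
local notation "GQ" => (AlgebraicClosure ℚ ≃ₐ[ℚ] AlgebraicClosure ℚ)

variable (p : ℕ) [hp : Fact p.Prime]

local notation "Gp" => (PadicAlgCl p ≃ₐ[ℚ_[p]] PadicAlgCl p)

/-- **Hilbert 90** for `Gal(ℚ̄_p/ℚ_p)` in level cohomology, cocycle form. -/
theorem h90_padic (F : Gp → Additive (PadicAlgCl p)ˣ)
    (hF : F ∈ LC.Z₁ (levelOf (localGaloisToGlobal p))
      (Rep.ofAlgebraAutOnUnits ℚ_[p] (PadicAlgCl p))) :
    ∃ β : (PadicAlgCl p)ˣ, ∀ g : Gp, F g = Additive.ofMul (g • β) - Additive.ofMul β := by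
  set M : Subgroup Gp := (⊥ : IntermediateField ℚ_[p] (PadicAlgCl p)).fixingSubgroup with hM
  have hsub := Fermat.Agent.CFT.PT.subsingleton_H1_local_fixingSubgroup p
    (⊥ : IntermediateField ℚ_[p] (PadicAlgCl p))
  have hres := (lcResZ₁ (Rep.ofAlgebraAutOnUnits ℚ_[p] (PadicAlgCl p))
    (levelCompat_comap M.subtype (levelOf (localGaloisToGlobal p))) ⟨F, hF⟩).2
  obtain ⟨a, ha⟩ := LC.exists_of_subsingleton_H1 hsub hres
  refine ⟨Additive.toMul (show Additive (PadicAlgCl p)ˣ from a), fun g => ?_⟩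
  have hg : g ∈ M := by
    rw [hM, IntermediateField.fixingSubgroup_bot]
    exact Subgroup.mem_top g
  exact ha ⟨g, hg⟩

/-- The mod `p` cyclotomic character of `Gal(ℚ̄_p/ℚ_p)` with values in `ZMod p`. -/
noncomputable def chiP (g : Gp) : ZMod p :=
  ((Fermat.Agent.Pseudo.Cyclo.cycloN p (localGaloisToGlobal p g) : (ZMod p)ˣ) : ZMod p)

theorem chiP_val (g : Gp) : (chiP p g).val = cycNat p (localGaloisToGlobal p g) := rfl

/-- The action on the image of a `p`-th root of unity of `ℚ̄`. -/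
theorem apply_padicEmbedding_root (g : Gp) {ζ₀ : Qb} (hζ₀ : ζ₀ ^ p = 1) :
    g (padicEmbedding p ζ₀) = padicEmbedding p ζ₀ ^ (chiP p g).val := by
  rw [← padicEmbedding_localGaloisToGlobal, cycNat_spec p _ ζ₀ hζ₀, map_pow, chiP_val]

/-- For odd `p`, `ℚ_p` contains no nontrivial `p`-th root of unity. -/
theorem card_rootsOfUnity_padic (hp2 : p ≠ 2) : Nat.card (rootsOfUnity p ℚ_[p]) = 1 := by
  have hpp : p.Prime := Fact.out
  haveI : NeZero (p : Qb) := ⟨Nat.cast_ne_zero.2 hpp.ne_zero⟩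
  obtain ⟨ζ₀, hζ₀⟩ := HasEnoughRootsOfUnity.exists_primitiveRoot Qb p
  obtain ⟨σ₀, hσ₀, hsq⟩ := exists_inertia_sq hp2
  haveI : Algebra.IsAlgebraic ℚ Qb := (AlgebraicClosure.instIsAlgClosure ℚ).isAlgebraic
  haveI : FiniteDimensional ℚ (IntermediateField.adjoin ℚ ({ζ₀} : Set Qb)) :=
    IntermediateField.adjoin.finiteDimensional (Algebra.IsIntegral.isIntegral ζ₀)
  obtain ⟨τ, hτ⟩ := exists_localGaloisToGlobal_eq_on p (mem_decomposition_of_mem_inertia hσ₀)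
    (IntermediateField.adjoin ℚ ({ζ₀} : Set Qb))
  have h1 : localGaloisToGlobal p τ ζ₀ = ζ₀ ^ 2 := by
    rw [hτ ζ₀ (IntermediateField.mem_adjoin_simple_self ℚ ζ₀)]
    exact hsq ζ₀ hζ₀.pow_eq_one
  set ζ := padicEmbedding p ζ₀ with hζdef
  have hζ : IsPrimitiveRoot ζ p := hζ₀.map_of_injective (padicEmbedding p).toRingHom.injective
  have h2 : τ ζ = ζ ^ 2 := by
    rw [hζdef, ← padicEmbedding_localGaloisToGlobal, h1, map_pow]
  have hp1 : 1 < p := hpp.one_lt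
  have hζ1 : ζ ≠ 1 := hζ.ne_one hp1
  have hζnot : ζ ∉ Set.range (algebraMap ℚ_[p] (PadicAlgCl p)) := by
    rintro ⟨y, hy⟩
    have h3 : τ ζ = ζ := by rw [← hy, τ.commutes]
    rw [h2, sq] at h3
    have hζ0 : ζ ≠ 0 := hζ.ne_zero hpp.ne_zero
    exact hζ1 (mul_left_cancel₀ hζ0 (by rw [h3, mul_one]))
  rw [Nat.card_eq_one_iff_unique]
  refine ⟨⟨fun u v => ?_⟩, ⟨1⟩⟩
  have key : ∀ w : rootsOfUnity p ℚ_[p], w = 1 := by
    intro w
    by_contra hw
    have hw1 : ((w : ℚ_[p]ˣ) : ℚ_[p]) ^ p = 1 := by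
      have := w.2
      rw [mem_rootsOfUnity] at this
      rw [← Units.val_pow_eq_pow_val, this, Units.val_one]
    have hw2 : ((w : ℚ_[p]ˣ) : ℚ_[p]) ≠ 1 := by
      intro h
      apply hw
      apply Subtype.ext
      apply Units.ext
      exact h
    set z : PadicAlgCl p := algebraMap ℚ_[p] (PadicAlgCl p) ((w : ℚ_[p]ˣ) : ℚ_[p]) with hz
    have hz1 : z ^ p = 1 := by rw [hz, ← map_pow, hw1, map_one]
    have hz2 : z ≠ 1 := by
      intro h
      apply hw2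
      apply (algebraMap ℚ_[p] (PadicAlgCl p)).injective
      rw [← hz, h, map_one]
    have hzprim : IsPrimitiveRoot z p := by
      have := IsPrimitiveRoot.orderOf z
      rwa [orderOf_eq_prime hz1 hz2] at this
    obtain ⟨i, -, hi⟩ := hzprim.eq_pow_of_pow_eq_one hζ.pow_eq_one
    apply hζnot
    exact ⟨((w : ℚ_[p]ˣ) : ℚ_[p]) ^ i, by rw [map_pow, ← hz, hi]⟩
  rw [key u, key v]

/-- `#ℚ_pˣ/(ℚ_pˣ)^p = p²` for odd `p`. -/
theorem card_quotient_pow_padic (hp2 : p ≠ 2) :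
    Nat.card (ℚ_[p]ˣ ⧸ (powMonoidHom p : ℚ_[p]ˣ →* ℚ_[p]ˣ).range) = p ^ 2 := by
  have hpp : p.Prime := Fact.out
  have hn : ((p : ℕ) : ℤ_[p]) ≠ 0 := Nat.cast_ne_zero.2 hpp.ne_zero
  rw [PowIndex.card_quotient_range_pow_unitsField ℤ_[p] ℚ_[p] p hn, card_rootsOfUnity_padic p hp2,
    PowIndex.card_padicInt_quotient_span_prime, mul_one, sq]

/-- **(KA)** `#H¹_LC(Gp, 𝔽_p(ω)) ≤ p²`. -/
theorem card_twH1_chiP_le (hp2 : p ≠ 2) :
    Finite (twH1 (levelOf (localGaloisToGlobal p)) (chiP p)) ∧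
      Nat.card (twH1 (levelOf (localGaloisToGlobal p)) (chiP p)) ≤ p ^ 2 := by
  have hpp : p.Prime := Fact.out
  haveI : NeZero (p : Qb) := ⟨Nat.cast_ne_zero.2 hpp.ne_zero⟩
  obtain ⟨ζ₀, hζ₀⟩ := HasEnoughRootsOfUnity.exists_primitiveRoot Qb p
  have hζ : IsPrimitiveRoot (padicEmbedding p ζ₀) p :=
    hζ₀.map_of_injective (padicEmbedding p).toRingHom.injective
  have hcard := card_quotient_pow_padic p hp2
  haveI : Finite (ℚ_[p]ˣ ⧸ (powMonoidHom p : ℚ_[p]ˣ →* ℚ_[p]ˣ).range) := by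
    apply Nat.finite_of_card_ne_zero
    rw [hcard]
    exact pow_ne_zero _ hpp.ne_zero
  have h := card_twH1_le_of_kummer (Lv := levelOf (localGaloisToGlobal p)) hζ
    (χp := chiP p) (h90_padic p) (fun g => apply_padicEmbedding_root p g hζ₀.pow_eq_one)
  rw [hcard] at h
  exact h

/-- **The Kummer bound for LOC-ord**: `dim_k H¹_LC(Gp, k(ω)) ≤ 2`. -/
theorem finrank_twH1_chiLoc_le (hp2 : p ≠ 2) {k : Type} [Field k] [Finite k]
    (hpk : (p : k) = 0) :
    Module.Finite k (twH1 (levelOf (localGaloisToGlobal p)) (chiLoc k p)) ∧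
      finrank k (twH1 (levelOf (localGaloisToGlobal p)) (chiLoc k p)) ≤ 2 := by
  have hpp : p.Prime := Fact.out
  haveI : CharP k p := (CharP.charP_iff_prime_eq_zero hpp).2 hpk
  letI : Algebra (ZMod p) k := ZMod.algebra k p
  obtain ⟨hfin, hcard⟩ := card_twH1_chiP_le p hp2
  have h := finrank_twH1_le_of_card (k := k) (levelOf (localGaloisToGlobal p)) (chiP p) hfin hcard
  have hχ : chiLoc k p = fun g => algebraMap (ZMod p) k (chiP p g) := by
    funext g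
    show ((cycNat p (localGaloisToGlobal p g) : ℕ) : k) = algebraMap (ZMod p) k (chiP p g)
    rw [← chiP_val, ← map_natCast (algebraMap (ZMod p) k), ZMod.natCast_zmod_val]
  rw [hχ]
  exact h

end Fermat.Agent.TW.Ord
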