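/-
S56 / Program G, block LOC-ord (helper19), file 13: THE OUTPUT of the block, unconditional, in the
shared vocabulary of `TW/LocalSpan.lean` (helper25):

`locBound_ord : LocBound ρbar 𝒟 T ⟨p, _⟩ 1` for every deformation condition `𝒟` implying
`DetIsCyclotomic p ∧ IsStrictOrdinaryAt p`, `p` odd, finite residue field of characteristic `p`.
-/
import Mathlib
import Fermat.Agent.TW.Ord.KummerP
import Fermat.Agent.TW.LocalSpan

set_option autoImplicit false
set_option linter.unusedSectionVars false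
set_option linter.style.haveILetI false

namespace Fermat.Agent.TW.Ord

open IsLocalRing Module ExtCitation
open Fermat.Agent.TW.Sel Fermat.Agent.TW.Ad0 Fermat.Agent.CFT Fermat.Agent.S55
open Fermat.Agent.TW.Contracts Fermat.Agent.TW.LocalSpan

variable {𝒪 : Type} [CommRing 𝒪] [IsLocalRing 𝒪]

local notation "kk" => ResidueField 𝒪

/-- `2 ≠ 0` in a field of odd characteristic `p`. -/
theorem two_ne_zero_of_odd_char {k : Type} [Field k] {p : ℕ} [Fact p.Prime] (hp2 : p ≠ 2)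
    (hpk : (p : k) = 0) : (2 : k) ≠ 0 := by
  have hpp : p.Prime := Fact.out
  haveI : CharP k p := (CharP.charP_iff_prime_eq_zero hpp).2 hpk
  intro h
  have h1 : ((2 : ℕ) : k) = 0 := by exact_mod_cast h
  rw [CharP.cast_eq_zero_iff k p] at h1
  exact hp2 ((Nat.prime_dvd_prime_iff_eq hpp Nat.prime_two).1 h1)

/-- **LOC-ord, unconditional (existence form).** -/
theorem locOrd {p : ℕ} [Fact p.Prime] (hp2 : p ≠ 2) [Finite kk] (hpk : (p : kk) = 0)
    (ρbar : ResidualGaloisRep kk) (𝒟 : Cond 𝒪) (T : Finset Nat.Primes)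
    (h𝒟 : letI : Algebra 𝒪 (DualNumber kk) := dualNumberAlgebra 𝒪
      ∀ ρ : GaloisRepAdic (DualNumber kk), 𝒟 ρ → ρ.DetIsCyclotomic p ∧ ρ.IsStrictOrdinaryAt p) :
    ∃ Lp : Submodule kk (LC.H1 (levelOf (localGaloisToGlobal p))
        (Rep.res (localGaloisToGlobal p) (ad0Rep ρbar))),
      (∀ x ∈ tanClasses ρbar 𝒟 T,
        lcResH1 (ad0Rep ρbar) (levelCompat_globalLevel (localGaloisToGlobal p) T) x ∈ Lp) ∧
      Module.Finite kk Lp ∧
      finrank kk Lp
        ≤ finrank kk (Rep.res (localGaloisToGlobal p) (ad0Rep ρbar)).ρ.invariants + 1 := by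
  obtain ⟨hfin, hK⟩ := finrank_twH1_chiLoc_le p hp2 (k := kk) hpk
  exact locOrdOut hp2 (two_ne_zero_of_odd_char hp2 hpk) ρbar 𝒟 T h𝒟 hfin hK

/-- The same in the vocabulary `primeLocalToGlobal v`, `v : Nat.Primes` (definitionally equal). -/
theorem locOrd_prime (v : Nat.Primes) (hv2 : (v : ℕ) ≠ 2) [Finite kk] (hvk : ((v : ℕ) : kk) = 0)
    (ρbar : ResidualGaloisRep kk) (𝒟 : Cond 𝒪) (T : Finset Nat.Primes)
    (h𝒟 : letI : Algebra 𝒪 (DualNumber kk) := dualNumberAlgebra 𝒪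
      ∀ ρ : GaloisRepAdic (DualNumber kk), 𝒟 ρ →
        ρ.DetIsCyclotomic (v : ℕ) ∧ ρ.IsStrictOrdinaryAt (v : ℕ)) :
    ∃ Lp : Submodule kk (H1v ρbar v),
      (∀ x ∈ tanClasses ρbar 𝒟 T, resV ρbar T v x ∈ Lp) ∧
      Module.Finite kk Lp ∧
      finrank kk Lp ≤ finrank kk (Rep.res (primeLocalToGlobal v) (ad0Rep ρbar)).ρ.invariants + 1 :=
  haveI : Fact (v : ℕ).Prime := ⟨v.2⟩
  locOrd hv2 hvk ρbar 𝒟 T h𝒟

/-- **LOC-ord in the shared vocabulary**: `dim L_v ≤ h⁰_v + 1` for the span of the restricted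
tangent classes, `v = p` the residue characteristic (odd), `𝒟 ⇒ det cyclotomic ∧ strict-ordinary`. -/
theorem locBound_ord (v : Nat.Primes) (hv2 : (v : ℕ) ≠ 2) [Finite kk] (hvk : ((v : ℕ) : kk) = 0)
    (ρbar : ResidualGaloisRep kk) (𝒟 : Cond 𝒪) (T : Finset Nat.Primes)
    (h𝒟 : letI : Algebra 𝒪 (DualNumber kk) := dualNumberAlgebra 𝒪
      ∀ ρ : GaloisRepAdic (DualNumber kk), 𝒟 ρ →
        ρ.DetIsCyclotomic (v : ℕ) ∧ ρ.IsStrictOrdinaryAt (v : ℕ)) :
    LocBound ρbar 𝒟 T v 1 := by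
  obtain ⟨Lp, hmem, hfin, hle⟩ := locOrd_prime v hv2 hvk ρbar 𝒟 T h𝒟
  have hspan : localTanSpan ρbar 𝒟 T v ≤ Lp := by
    apply Submodule.span_le.2
    rintro _ ⟨x, hx, rfl⟩
    exact hmem x hx
  haveI := hfin
  have hfd : FiniteDimensional kk (localTanSpan ρbar 𝒟 T v) :=
    Submodule.finiteDimensional_of_le hspan
  exact ⟨hfd, (Submodule.finrank_mono hspan).trans hle⟩

/-- **LOC-ord for the S56 condition** `condQ strictOrdinary p Smin Q`, literally the target of the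
board (`v = ⟨p, _⟩`). -/
theorem locBound_ord_condQ (v : Nat.Primes) (hv2 : (v : ℕ) ≠ 2) [Finite kk]
    (hvk : ((v : ℕ) : kk) = 0) (ρbar : ResidualGaloisRep kk) (Smin Q : Finset ℕ)
    (T : Finset Nat.Primes) :
    LocBound ρbar (condQ (fun p S => GaloisRep.strictOrdinaryCondition 𝒪 p S) (v : ℕ) Smin Q)
      T v 1 :=
  locBound_ord v hv2 hvk ρbar _ T (fun _ h => ⟨h.1.1, h.1.2.1⟩)

end Fermat.Agent.TW.Ord
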