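/-
S56 / Program G, block LOC-flat (ORD case), helper11: the `ε`-DIAGONAL variant of helper19's
`Tri.tanCochain_of_triangular`.

`R : G →* M₂(k[ε])`, `B` a unit of `M₂(k[ε])`, `T σ := B⁻¹ R σ B`.
* `tanCochain_conj_unit` : for ANY `B`,
  `c_R σ = B₀ · c_T σ · B₀⁻¹ + (m - rb σ m rb σ⁻¹)`, `B₀ = B mod ε`, `m = B₀ m₂ B₀⁻¹`;
* `tanCochain_of_upper` : if `T σ` is upper triangular on a subgroup `S` (no condition on the
  `ε`-parts of the diagonal), then on `S`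
  `c_R σ = B₀ [[dlog₀ σ, t σ], [0, dlog₁ σ]] B₀⁻¹ + (m - rb σ m rb σ⁻¹)`;
* `dlogEntry_mul` : the diagonal entries `dlog_i` are additive on `S`;
* `dlogEntry_eq_zero_of_snd`, `dlogEntry_add_eq_zero` (determinant without `ε`-part);
* `tanCochain_of_upper_det` : with fixed determinant, `c_R σ = B₀ (t E₁₂ + u diag(1,-1)) B₀⁻¹ + ∂m`.
Mathlib + helper19's `TW/Sel/DualMat`, `TW/Ord/Tri`.
-/
import Mathlib
import Fermat.Agent.TW.Ord.Tri

set_option autoImplicit false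
set_option linter.unusedSectionVars false

namespace Fermat.Agent.TW.Ord

open Matrix Fermat.Agent.TW.Sel

variable {k : Type*} [Field k] {G : Type*} [Group G]

local notation "M2" => Matrix (Fin 2) (Fin 2)

/-- **Tangent cochain of a conjugate** (no triangularity needed):
`c_R σ = B₀ · c_{B⁻¹RB} σ · B₀⁻¹ + (m - rb σ m rb σ⁻¹)`. -/
theorem tanCochain_conj_unit (R : G →* M2 (DualNumber k)) (B : (M2 (DualNumber k))ˣ) :
    ∃ (B₀ : (M2 k)ˣ) (m : M2 k), (B₀ : M2 k) = mfst (B : M2 (DualNumber k)) ∧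
      ∀ σ, tanCochain R σ
        = (B₀ : M2 k) * tanCochain (conjHom B R) σ * ((B₀⁻¹ : (M2 k)ˣ) : M2 k)
          + (m - redHom R σ * m * redHom R σ⁻¹) := by
  obtain ⟨B₀, m₂, hB₀, hB⟩ := unit_decomp B
  set R'' : G →* M2 (DualNumber k) := conjHom (cstUnit B₀) R with hR''
  have hconj : ∀ σ, conjHom B R σ = mlift 1 (-m₂) * R'' σ * mlift 1 (-(-m₂)) := by
    intro σ
    rw [neg_neg, hR'', conjHom_apply, conjHom_apply, hB, _root_.mul_inv_rev, Units.val_mul,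
      Units.val_mul, val_inv_unitOfTangent, val_unitOfTangent]
    simp only [mul_assoc]
  have hc := fun σ => tanCochain_conj (R := R'') (R' := conjHom B R) (-m₂) hconj σ
  refine ⟨B₀, (B₀ : M2 k) * m₂ * ((B₀⁻¹ : (M2 k)ˣ) : M2 k), hB₀, fun σ => ?_⟩
  have h1 := hc σ
  rw [hR'', tanCochain_conjHom_cst, redHom_conjHom_cst, redHom_conjHom_cst] at h1
  have hU : (B₀ : M2 k) * ((B₀⁻¹ : (M2 k)ˣ) : M2 k) = 1 := Units.mul_inv B₀
  have hU' : ((B₀⁻¹ : (M2 k)ˣ) : M2 k) * (B₀ : M2 k) = 1 := Units.inv_mul B₀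
  have h2 : tanCochain R σ = (B₀ : M2 k)
      * (((B₀⁻¹ : (M2 k)ˣ) : M2 k) * tanCochain R σ * (B₀ : M2 k))
      * ((B₀⁻¹ : (M2 k)ˣ) : M2 k) := by
    simp only [← mul_assoc]
    rw [hU, one_mul, mul_assoc, hU, mul_one]
  rw [h2]
  have h3 : ((B₀⁻¹ : (M2 k)ˣ) : M2 k) * tanCochain R σ * (B₀ : M2 k)
      = tanCochain (conjHom B R) σ
        - (-m₂ - ((B₀⁻¹ : (M2 k)ˣ) : M2 k) * redHom R σ * (B₀ : M2 k) * -m₂ *
          (((B₀⁻¹ : (M2 k)ˣ) : M2 k) * redHom R σ⁻¹ * (B₀ : M2 k))) := by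
    rw [h1]; abel
  rw [h3]
  generalize tanCochain (conjHom B R) σ = E
  have h4 : (B₀ : M2 k) * (((B₀⁻¹ : (M2 k)ˣ) : M2 k) * redHom R σ * (B₀ : M2 k) * m₂ *
      (((B₀⁻¹ : (M2 k)ˣ) : M2 k) * redHom R σ⁻¹ * (B₀ : M2 k))) * ((B₀⁻¹ : (M2 k)ˣ) : M2 k)
      = redHom R σ * ((B₀ : M2 k) * m₂ * ((B₀⁻¹ : (M2 k)ˣ) : M2 k)) * redHom R σ⁻¹ := by
    calc (B₀ : M2 k) * (((B₀⁻¹ : (M2 k)ˣ) : M2 k) * redHom R σ * (B₀ : M2 k) * m₂ *
          (((B₀⁻¹ : (M2 k)ˣ) : M2 k) * redHom R σ⁻¹ * (B₀ : M2 k))) * ((B₀⁻¹ : (M2 k)ˣ) : M2 k)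
        = ((B₀ : M2 k) * ((B₀⁻¹ : (M2 k)ˣ) : M2 k)) * redHom R σ * ((B₀ : M2 k) * m₂ *
          ((B₀⁻¹ : (M2 k)ˣ) : M2 k)) * redHom R σ⁻¹ *
            ((B₀ : M2 k) * ((B₀⁻¹ : (M2 k)ˣ) : M2 k)) := by simp only [mul_assoc]
      _ = _ := by rw [hU, one_mul, mul_one]
  simp only [mul_neg, neg_mul, sub_neg_eq_add]
  generalize ((B₀⁻¹ : (M2 k)ˣ) : M2 k) * redHom R σ * (B₀ : M2 k) * m₂ *
      (((B₀⁻¹ : (M2 k)ˣ) : M2 k) * redHom R σ⁻¹ * (B₀ : M2 k)) = Y at h4 ⊢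
  rw [← h4]
  simp only [mul_sub, sub_mul, mul_add, add_mul, mul_neg, neg_mul]
  abel

/-- The `dlog` of the `i`-th diagonal entry of `B⁻¹ R σ B`. -/
def dlogEntry (B : (M2 (DualNumber k))ˣ) (R : G →* M2 (DualNumber k)) (i : Fin 2) (σ : G) : k :=
  ((conjHom B R σ) i i).snd * ((conjHom B R σ⁻¹) i i).fst

/-- The upper-right entry of the tangent cochain of `B⁻¹ R B`. -/
def offEntry (B : (M2 (DualNumber k))ˣ) (R : G →* M2 (DualNumber k)) (σ : G) : k :=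
  ((conjHom B R σ) 0 0).snd * ((conjHom B R σ⁻¹) 0 1).fst
    + ((conjHom B R σ) 0 1).snd * ((conjHom B R σ⁻¹) 1 1).fst

/-- Tangent cochain of an upper triangular hom (on a subgroup). -/
theorem tanCochain_upper (R' : G →* M2 (DualNumber k)) {σ : G} (h : (R' σ) 1 0 = 0)
    (h' : (R' σ⁻¹) 1 0 = 0) :
    tanCochain R' σ = !![(R' σ 0 0).snd * (R' σ⁻¹ 0 0).fst,
      (R' σ 0 0).snd * (R' σ⁻¹ 0 1).fst + (R' σ 0 1).snd * (R' σ⁻¹ 1 1).fst;
      0, (R' σ 1 1).snd * (R' σ⁻¹ 1 1).fst] := by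
  rw [tanCochain, redHom_apply]
  generalize R' σ = T at h ⊢
  generalize R' σ⁻¹ = T' at h' ⊢
  ext i j
  fin_cases i <;> fin_cases j <;>
    simp [Matrix.mul_apply, Fin.sum_univ_two, h, h']

/-- **Tangent cochain of an upper-triangularisable lift** (`ε`-diagonal variant). -/
theorem tanCochain_of_upper (R : G →* M2 (DualNumber k)) (B : (M2 (DualNumber k))ˣ)
    (S : Subgroup G) (hT : ∀ σ ∈ S, (conjHom B R σ) 1 0 = 0) :
    ∃ (B₀ : (M2 k)ˣ) (m : M2 k), (B₀ : M2 k) = mfst (B : M2 (DualNumber k)) ∧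
      ∀ σ ∈ S, tanCochain R σ
        = (B₀ : M2 k) * !![dlogEntry B R 0 σ, offEntry B R σ; 0, dlogEntry B R 1 σ]
            * ((B₀⁻¹ : (M2 k)ˣ) : M2 k)
          + (m - redHom R σ * m * redHom R σ⁻¹) := by
  obtain ⟨B₀, m, hB₀, h⟩ := tanCochain_conj_unit R B
  refine ⟨B₀, m, hB₀, fun σ hσ => ?_⟩
  rw [h σ, tanCochain_upper (conjHom B R) (hT σ hσ) (hT σ⁻¹ (S.inv_mem hσ))]
  rfl

/-- Diagonal entries of upper triangular matrices multiply. -/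
theorem conjHom_diag_mul (R : G →* M2 (DualNumber k)) (B : (M2 (DualNumber k))ˣ)
    (S : Subgroup G) (hT : ∀ σ ∈ S, (conjHom B R σ) 1 0 = 0) {σ τ : G} (hσ : σ ∈ S) (hτ : τ ∈ S)
    (i : Fin 2) :
    (conjHom B R (σ * τ)) i i = (conjHom B R σ) i i * (conjHom B R τ) i i := by
  rw [map_mul, Matrix.mul_apply, Fin.sum_univ_two]
  fin_cases i
  · show (conjHom B R σ) 0 0 * (conjHom B R τ) 0 0 + (conjHom B R σ) 0 1 * (conjHom B R τ) 1 0 = _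
    rw [hT τ hτ, mul_zero, add_zero]
    rfl
  · show (conjHom B R σ) 1 0 * (conjHom B R τ) 0 1 + (conjHom B R σ) 1 1 * (conjHom B R τ) 1 1 = _
    rw [hT σ hσ, zero_mul, zero_add]
    rfl

theorem conjHom_diag_mul_inv (R : G →* M2 (DualNumber k)) (B : (M2 (DualNumber k))ˣ)
    (S : Subgroup G) (hT : ∀ σ ∈ S, (conjHom B R σ) 1 0 = 0) {σ : G} (hσ : σ ∈ S) (i : Fin 2) :
    (conjHom B R σ) i i * (conjHom B R σ⁻¹) i i = 1 := by
  rw [← conjHom_diag_mul R B S hT hσ (S.inv_mem hσ), mul_inv_cancel, map_one, Matrix.one_apply_eq]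

/-- The `dlog` of the diagonal characters is additive on `S`. -/
theorem dlogEntry_mul (R : G →* M2 (DualNumber k)) (B : (M2 (DualNumber k))ˣ)
    (S : Subgroup G) (hT : ∀ σ ∈ S, (conjHom B R σ) 1 0 = 0) {σ τ : G} (hσ : σ ∈ S) (hτ : τ ∈ S)
    (i : Fin 2) :
    dlogEntry B R i (σ * τ) = dlogEntry B R i σ + dlogEntry B R i τ := by
  unfold dlogEntry
  have h1 := congrArg TrivSqZeroExt.fst (conjHom_diag_mul_inv R B S hT hσ i)
  have h2 := congrArg TrivSqZeroExt.fst (conjHom_diag_mul_inv R B S hT hτ i)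
  rw [TrivSqZeroExt.fst_mul, TrivSqZeroExt.fst_one] at h1 h2
  rw [_root_.mul_inv_rev, conjHom_diag_mul R B S hT hσ hτ,
    conjHom_diag_mul R B S hT (S.inv_mem hτ) (S.inv_mem hσ), TrivSqZeroExt.snd_mul,
    TrivSqZeroExt.fst_mul]
  simp only [smul_eq_mul, MulOpposite.smul_eq_mul_unop, MulOpposite.unop_op]
  linear_combination (((conjHom B R τ) i i).snd * ((conjHom B R τ⁻¹) i i).fst) * h1
    + (((conjHom B R σ) i i).snd * ((conjHom B R σ⁻¹) i i).fst) * h2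

theorem dlogEntry_eq_zero_of_snd {B : (M2 (DualNumber k))ˣ} {R : G →* M2 (DualNumber k)}
    {i : Fin 2} {σ : G} (h : ((conjHom B R σ) i i).snd = 0) : dlogEntry B R i σ = 0 := by
  unfold dlogEntry
  rw [h, zero_mul]

/-- If `det (R σ)` has no `ε`-part, the two `dlog`s are opposite. -/
theorem dlogEntry_add_eq_zero (R : G →* M2 (DualNumber k)) (B : (M2 (DualNumber k))ˣ)
    (S : Subgroup G) (hT : ∀ σ ∈ S, (conjHom B R σ) 1 0 = 0) {σ : G} (hσ : σ ∈ S)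
    (hdet : ((R σ).det).snd = 0) : dlogEntry B R 0 σ + dlogEntry B R 1 σ = 0 := by
  have h1 : ((conjHom B R σ).det).snd = 0 := by
    rw [conjHom_apply, Matrix.det_units_conj']
    exact hdet
  have h2 := trace_tanCochain_eq_zero (conjHom B R) σ h1
  rw [tanCochain_upper (conjHom B R) (hT σ hσ) (hT σ⁻¹ (S.inv_mem hσ)), Matrix.trace_fin_two] at h2
  simpa [dlogEntry] using h2

/-- The diagonal matrix `diag(u, -u)`. -/
def hdiag (u : k) : M2 k := !![u, 0; 0, -u]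

/-- **Fixed determinant**: `c_R σ = B₀ (t E₁₂ + u diag(1,-1)) B₀⁻¹ + (m - rb σ m rb σ⁻¹)` on `S`,
with `u = dlogEntry B R 0` additive on `S`. -/
theorem tanCochain_of_upper_det (R : G →* M2 (DualNumber k)) (B : (M2 (DualNumber k))ˣ)
    (S : Subgroup G) (hT : ∀ σ ∈ S, (conjHom B R σ) 1 0 = 0)
    (hdet : ∀ σ ∈ S, ((R σ).det).snd = 0) :
    ∃ (B₀ : (M2 k)ˣ) (m : M2 k), (B₀ : M2 k) = mfst (B : M2 (DualNumber k)) ∧
      ∀ σ ∈ S, tanCochain R σ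
        = (B₀ : M2 k) * (e12 (offEntry B R σ) + hdiag (dlogEntry B R 0 σ))
            * ((B₀⁻¹ : (M2 k)ˣ) : M2 k)
          + (m - redHom R σ * m * redHom R σ⁻¹) := by
  obtain ⟨B₀, m, hB₀, h⟩ := tanCochain_of_upper R B S hT
  refine ⟨B₀, m, hB₀, fun σ hσ => ?_⟩
  rw [h σ hσ]
  have h1 : dlogEntry B R 1 σ = - dlogEntry B R 0 σ :=
    eq_neg_of_add_eq_zero_right (dlogEntry_add_eq_zero R B S hT hσ (hdet σ hσ))
  have h2 : (!![dlogEntry B R 0 σ, offEntry B R σ; 0, dlogEntry B R 1 σ] : M2 k)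
      = e12 (offEntry B R σ) + hdiag (dlogEntry B R 0 σ) := by
    rw [h1]
    ext i j
    fin_cases i <;> fin_cases j <;> simp [e12, hdiag]
  rw [h2]

end Fermat.Agent.TW.Ord
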